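import Fermat.Agent.S24.FF.PlacePrime

set_option autoImplicit false

open AlgebraicCurve IntermediateField IsDedekindDomain
open scoped IntermediateField.algebraAdjoinAdjoin KaehlerDifferential

namespace Fermat.Agent.S24.FF

variable (K : Type*) {F : Type*} [Field K] [Field F] [Algebra K F]

variable [IsAlgClosed K] [CharZero K]

theorem exists_integral_avoid (y : F) (hy : Transcendental K y) [FiniteDimensional K⟮y⟯ F]
    (v : Place K F) (hv : 0 < v.ord y) (s : Finset (Place K F))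
    (hs : v ∉ s) (hs' : ∀ w ∈ s, 0 < w.ord y) :
    ∃ f : F, IsIntegral (Algebra.adjoin K {y}) f ∧ 0 < v.ord f ∧ ∀ w ∈ s, w.ord f = 0 := by
  classical
  rcases s.eq_empty_or_nonempty with rfl | ⟨w₀, hw₀⟩
  · exact ⟨y, (isIntegral_algebraMap (R := Algebra.adjoin K {y}) (x := yR K y)), hv, by simp⟩
  obtain ⟨P, hP⟩ := exists_placeOf_eq K y v hv.le
  -- choose a prime for each place in `s`
  have hch : ∀ w : Place K F, ∃ Q : HeightOneSpectrum (Sy K y), w ∈ s → placeOf K y Q = w := by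
    intro w
    by_cases hw : w ∈ s
    · obtain ⟨Q, hQ⟩ := exists_placeOf_eq K y w (hs' w hw).le
      exact ⟨Q, fun _ => hQ⟩
    · exact ⟨P, fun h => absurd h hw⟩
  choose Q hQ using hch
  have hnot : ¬ ((P.asIdeal : Set (Sy K y)) ⊆ ⋃ w ∈ (s : Set (Place K F)), (Q w).asIdeal) := by
    intro hsub
    rw [Ideal.subset_union_prime (f := fun w => (Q w).asIdeal) v v
      (fun w _ _ _ => (Q w).isPrime)] at hsub
    obtain ⟨w, hw, hle⟩ := hsub
    have hmax : P.asIdeal.IsMaximal := P.isMaximal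
    have heq : P.asIdeal = (Q w).asIdeal := hmax.eq_of_le (Q w).isPrime.ne_top hle
    have hPQ : P = Q w := HeightOneSpectrum.ext heq
    apply hs
    rw [← hP, hPQ, hQ w hw]
    exact hw
  rw [Set.not_subset] at hnot
  obtain ⟨f, hfP, hfQ⟩ := hnot
  have hfQ' : ∀ w ∈ s, f ∉ (Q w).asIdeal := by
    intro w hw hmem
    apply hfQ
    simp only [Set.mem_iUnion]
    exact ⟨w, hw, hmem⟩
  have hf0 : f ≠ 0 := by
    rintro rfl
    exact hfQ' w₀ hw₀ (zero_mem _)
  refine ⟨(f : F), f.2, ?_, ?_⟩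
  · rw [← hP]
    exact (placeOf_ord_pos_iff K y P f hf0).mpr hfP
  · intro w hw
    have h1 := placeOf_ord_nonneg K y (Q w) f
    have h2 := (placeOf_ord_pos_iff K y (Q w) f hf0).not.mpr (hfQ' w hw)
    rw [hQ w hw] at h1 h2
    omega

end Fermat.Agent.S24.FF
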