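import Fermat.Prelude.Def_AlgebraicCurve_CanonicalDivisor

set_option autoImplicit false

open AlgebraicCurve

namespace Fermat.Agent.S24.FF

variable {K F : Type*} [Field K] [Field F] [Algebra K F]

/-- The places of `F/K` at which `y` has a zero. -/
def zeroPlaces (K : Type*) {F : Type*} [Field K] [Field F] [Algebra K F] (y : F) :
    Set (Place K F) := {v | 0 < v.ord y}

theorem mem_zeroPlaces {y : F} {v : Place K F} : v ∈ zeroPlaces K y ↔ 0 < v.ord y := Iff.rfl

variable (v : Place K F)

theorem ord_eq_neg_log (f : F) : v.ord f = -(WithZero.log (v.adicValuation f)) := rfl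

theorem adicValuation_eq_exp {f : F} (hf : f ≠ 0) :
    v.adicValuation f = WithZero.exp (-(v.ord f)) := by
  rw [ord_eq_neg_log, neg_neg, WithZero.exp_log (v.adicValuation_ne_zero hf)]

theorem ord_le_ord_iff {f g : F} (hf : f ≠ 0) (hg : g ≠ 0) :
    v.ord f ≤ v.ord g ↔ v.adicValuation g ≤ v.adicValuation f := by
  rw [adicValuation_eq_exp v hf, adicValuation_eq_exp v hg, WithZero.exp_le_exp]
  omega

theorem ord_add {f g : F} (hf : f ≠ 0) (hg : g ≠ 0) (hfg : f + g ≠ 0) :
    min (v.ord f) (v.ord g) ≤ v.ord (f + g) := by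
  have h := v.adicValuation.map_add f g
  rcases le_max_iff.mp h with h | h
  · exact (min_le_left _ _).trans ((ord_le_ord_iff v hf hfg).mpr h)
  · exact (min_le_right _ _).trans ((ord_le_ord_iff v hg hfg).mpr h)

theorem ord_neg (f : F) : v.ord (-f) = v.ord f := by
  simp [ord_eq_neg_log, Valuation.map_neg]

theorem ord_add_eq_of_lt {f g : F} (hf : f ≠ 0) (hg : g ≠ 0) (h : v.ord f < v.ord g) :
    v.ord (f + g) = v.ord f := by
  have h' : v.adicValuation g < v.adicValuation f := by
    rw [adicValuation_eq_exp v hf, adicValuation_eq_exp v hg, WithZero.exp_lt_exp]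
    omega
  have := v.adicValuation.map_add_eq_of_lt_left h'
  rw [ord_eq_neg_log, ord_eq_neg_log, this]

theorem ord_nonneg_of_mem {f : F} (hf : f ∈ v.toValuationSubring) : 0 ≤ v.ord f := by
  rcases eq_or_ne f 0 with rfl | hf0
  · simp
  have h1 : v.adicValuation f ≤ 1 := by
    have := v.adicValuation_coe ⟨f, hf⟩
    rw [show ((⟨f, hf⟩ : v.toValuationSubring) : F) = f from rfl] at this
    rw [this]
    exact IsDedekindDomain.HeightOneSpectrum.intValuation_le_one _ _
  rw [adicValuation_eq_exp v hf0, ← WithZero.exp_zero, WithZero.exp_le_exp] at h1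
  omega

theorem mem_of_ord_nonneg {f : F} (hf : 0 ≤ v.ord f) : f ∈ v.toValuationSubring := by
  rcases eq_or_ne f 0 with rfl | hf0
  · exact zero_mem _
  obtain ⟨π, hπ⟩ := IsDiscreteValuationRing.exists_irreducible v.toValuationSubring
  obtain ⟨u, hu⟩ := v.exists_unit_mul_zpow hf0 hπ
  rw [hu]
  obtain ⟨n, hn⟩ := Int.eq_ofNat_of_zero_le hf
  rw [hn, zpow_natCast]
  exact mul_mem (u : v.toValuationSubring).2 (pow_mem π.2 n)

theorem ord_nonneg_iff {f : F} : 0 ≤ v.ord f ↔ f ∈ v.toValuationSubring :=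
  ⟨mem_of_ord_nonneg v, ord_nonneg_of_mem v⟩

theorem ord_algebraMap (c : K) : v.ord (algebraMap K F c) = 0 := by
  rcases eq_or_ne c 0 with rfl | hc
  · simp
  have h1 := ord_nonneg_of_mem v (v.algebraMap_mem' c)
  have h2 := ord_nonneg_of_mem v (v.algebraMap_mem' c⁻¹)
  rw [map_inv₀, v.ord_inv] at h2
  omega

theorem ord_pow (f : F) (n : ℕ) : v.ord (f ^ n) = n * v.ord f := by
  have := v.ord_zpow f n
  rwa [zpow_natCast] at this

theorem ord_div {f g : F} (hf : f ≠ 0) (hg : g ≠ 0) : v.ord (f / g) = v.ord f - v.ord g := by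
  rw [div_eq_mul_inv, v.ord_mul hf (inv_ne_zero hg), v.ord_inv]; ring

theorem exists_ord_eq_one : ∃ π : F, v.ord π = 1 := by
  obtain ⟨π, hπ⟩ := IsDiscreteValuationRing.exists_irreducible v.toValuationSubring
  exact ⟨π, v.ord_coe_irreducible hπ⟩

theorem ne_zero_of_ord_ne_zero {f : F} (h : v.ord f ≠ 0) : f ≠ 0 := by
  rintro rfl; simp at h

/-- A place is determined by (an inclusion of) valuation rings: DVRs are maximal subrings. -/
theorem eq_of_le {v w : Place K F} (h : v.toValuationSubring ≤ w.toValuationSubring) : v = w := by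
  apply Place.ext
  refine le_antisymm h fun f hf => ?_
  by_contra hfv
  -- `f ∉ O_v`, so `ord_v f < 0`; then `π⁻¹ ∈ O_w`, and so everything is in `O_w`.
  have hneg : v.ord f < 0 := by
    by_contra hh
    exact hfv (mem_of_ord_nonneg v (not_lt.mp hh))
  have hf0 : f ≠ 0 := ne_zero_of_ord_ne_zero v hneg.ne
  apply w.ne_top'
  refine SetLike.ext fun g => ⟨fun _ => ValuationSubring.mem_top g, fun _ => ?_⟩
  rcases eq_or_ne g 0 with rfl | hg0
  · exact zero_mem _
  -- choose `n` with `ord_v (g * f⁻¹ ^ n) ≥ 0`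
  obtain ⟨n, hn⟩ : ∃ n : ℕ, 0 ≤ v.ord g + n * (-(v.ord f)) := by
    refine ⟨(-(v.ord g)).toNat, ?_⟩
    have h1 : (1 : ℤ) ≤ -(v.ord f) := by omega
    have h2 : (-(v.ord g)) ≤ ((-(v.ord g)).toNat : ℤ) := Int.self_le_toNat _
    have h3 : (0 : ℤ) ≤ ((-(v.ord g)).toNat : ℤ) := Int.natCast_nonneg _
    nlinarith
  have hmem : g * (f⁻¹) ^ n ∈ v.toValuationSubring := by
    apply mem_of_ord_nonneg
    rw [v.ord_mul hg0 (pow_ne_zero _ (inv_ne_zero hf0)), ord_pow, v.ord_inv]
    exact hn
  have : g = (g * (f⁻¹) ^ n) * f ^ n := by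
    rw [inv_pow, mul_assoc, inv_mul_cancel₀ (pow_ne_zero _ hf0), mul_one]
  rw [this]
  exact mul_mem (h hmem) (pow_mem hf n)

theorem eq_of_forall_ord_nonneg {v w : Place K F}
    (h : ∀ f : F, 0 ≤ v.ord f → 0 ≤ w.ord f) : v = w :=
  eq_of_le fun f hf => mem_of_ord_nonneg w (h f (ord_nonneg_of_mem v hf))

section OrdFun

variable (w : F → ℤ)
  (hmul : ∀ f g, f ≠ 0 → g ≠ 0 → w (f * g) = w f + w g)
  (hadd : ∀ f g, f ≠ 0 → g ≠ 0 → f + g ≠ 0 → min (w f) (w g) ≤ w (f + g))

include hmul in
theorem ordFun_one : w 1 = 0 := by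
  have := hmul 1 1 one_ne_zero one_ne_zero
  rw [mul_one] at this; omega

include hmul in
theorem ordFun_neg_one : w (-1) = 0 := by
  have := hmul (-1) (-1) (neg_ne_zero.mpr one_ne_zero) (neg_ne_zero.mpr one_ne_zero)
  rw [neg_mul_neg, mul_one, ordFun_one w hmul] at this; omega

include hmul in
theorem ordFun_inv {f : F} (hf : f ≠ 0) : w f⁻¹ = -w f := by
  have := hmul f f⁻¹ hf (inv_ne_zero hf)
  rw [mul_inv_cancel₀ hf, ordFun_one w hmul] at this; omega

include hmul in
theorem ordFun_neg {f : F} (hf : f ≠ 0) : w (-f) = w f := by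
  have := hmul (-1) f (neg_ne_zero.mpr one_ne_zero) hf
  rw [neg_one_mul, ordFun_neg_one w hmul] at this; omega

include hmul in
theorem ordFun_zpow {f : F} (hf : f ≠ 0) (n : ℤ) : w (f ^ n) = n * w f := by
  induction n using Int.induction_on with
  | zero => simp [ordFun_one w hmul]
  | succ n ih =>
    rw [zpow_add_one₀ hf, hmul _ _ (zpow_ne_zero _ hf) hf, ih]; ring
  | pred n ih =>
    rw [zpow_sub_one₀ hf, hmul _ _ (zpow_ne_zero _ hf) (inv_ne_zero hf), ih,
      ordFun_inv w hmul hf]; ring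

/-- The valuation subring attached to a `ℤ`-valued valuation function. -/
def ordFunValuationSubring : ValuationSubring F where
  carrier := {f | f = 0 ∨ 0 ≤ w f}
  mul_mem' := by
    rintro a b (rfl | ha) (rfl | hb)
    · left; simp
    · left; simp
    · left; simp
    · by_cases ha0 : a = 0
      · left; simp [ha0]
      by_cases hb0 : b = 0
      · left; simp [hb0]
      right; rw [hmul a b ha0 hb0]; omega
  one_mem' := Or.inr (ordFun_one w hmul).ge
  add_mem' := by
    rintro a b ha hb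
    by_cases ha0 : a = 0
    · simpa [ha0] using hb
    by_cases hb0 : b = 0
    · simpa [hb0] using ha
    by_cases hab : a + b = 0
    · exact Or.inl hab
    right
    have h1 := ha.resolve_left ha0
    have h2 := hb.resolve_left hb0
    exact (le_min h1 h2).trans (hadd a b ha0 hb0 hab)
  zero_mem' := Or.inl rfl
  neg_mem' := by
    rintro a ha
    by_cases ha0 : a = 0
    · left; simp [ha0]
    right; rw [ordFun_neg w hmul ha0]; exact ha.resolve_left ha0
  mem_or_inv_mem' := by
    intro a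
    by_cases ha0 : a = 0
    · exact Or.inl (Or.inl ha0)
    rcases le_total 0 (w a) with h | h
    · exact Or.inl (Or.inr h)
    · right; right; rw [ordFun_inv w hmul ha0]; omega

theorem mem_ordFunValuationSubring {f : F} :
    f ∈ ordFunValuationSubring w hmul hadd ↔ f = 0 ∨ 0 ≤ w f := Iff.rfl

theorem isPrincipalIdealRing_ordFunValuationSubring :
    IsPrincipalIdealRing (ordFunValuationSubring w hmul hadd) := by
  classical
  refine ⟨fun I => ?_⟩
  by_cases hI : I = ⊥
  · rw [hI]; exact ⟨⟨0, by simp⟩⟩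
  obtain ⟨a, haI, ha0⟩ := Submodule.exists_mem_ne_zero_of_ne_bot hI
  -- minimal value
  have hex : ∃ n : ℕ, ∃ b ∈ I, b ≠ 0 ∧ (w (b : F)).toNat = n := ⟨_, a, haI, ha0, rfl⟩
  obtain ⟨b, hbI, hb0, hbn⟩ := Nat.find_spec hex
  have hmin : ∀ c ∈ I, c ≠ 0 → w (b : F) ≤ w (c : F) := by
    intro c hcI hc0
    have h1 : Nat.find hex ≤ (w (c : F)).toNat := Nat.find_min' hex ⟨c, hcI, hc0, rfl⟩
    have hbF : (b : F) ≠ 0 := by simpa using hb0
    have hcF : (c : F) ≠ 0 := by simpa using hc0
    have h2 : 0 ≤ w (b : F) := b.2.resolve_left hbF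
    have h3 : 0 ≤ w (c : F) := c.2.resolve_left hcF
    omega
  refine ⟨⟨b, le_antisymm (fun c hc => ?_) ?_⟩⟩
  · rcases eq_or_ne c 0 with rfl | hc0
    · exact zero_mem _
    have hbF : (b : F) ≠ 0 := by simpa using hb0
    have hcF : (c : F) ≠ 0 := by simpa using hc0
    have hq : (c : F) * (b : F)⁻¹ ∈ ordFunValuationSubring w hmul hadd := by
      right
      rw [hmul _ _ hcF (inv_ne_zero hbF), ordFun_inv w hmul hbF]
      have := hmin c hc hc0
      omega
    rw [Submodule.mem_span_singleton]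
    refine ⟨⟨_, hq⟩, ?_⟩
    ext
    simp [inv_mul_cancel₀ hbF, mul_assoc]
  · rw [Submodule.span_singleton_le_iff_mem]; exact hbI

include hmul hadd in
/-- A nontrivial `ℤ`-valued valuation function on `F`, trivial on `K`, is a positive multiple of
the normalised order function of a unique place. -/
theorem exists_place_of_ordFun
    (hK : ∀ c : K, c ≠ 0 → w (algebraMap K F c) = 0)
    (hnt : ∃ f, f ≠ 0 ∧ w f ≠ 0) :
    ∃ (v : Place K F) (c : ℕ), 0 < c ∧ (∀ f, f ≠ 0 → w f = c * v.ord f) := by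
  classical
  obtain ⟨v, hv⟩ : ∃ v : Place K F, ∀ f, f ∈ v.toValuationSubring ↔ (f = 0 ∨ 0 ≤ w f) := by
    refine ⟨{ toValuationSubring := ordFunValuationSubring w hmul hadd
              algebraMap_mem' := fun a => ?_
              ne_top' := ?_
              isPrincipalIdealRing' :=
                isPrincipalIdealRing_ordFunValuationSubring w hmul hadd }, fun f => Iff.rfl⟩
    · by_cases ha : a = 0
      · left; simp [ha]
      · right; exact (hK a ha).ge
    · intro htop
      obtain ⟨f, hf0, hf⟩ := hnt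
      have h1 : f ∈ ordFunValuationSubring w hmul hadd := htop ▸ ValuationSubring.mem_top f
      have h2 : f⁻¹ ∈ ordFunValuationSubring w hmul hadd := htop ▸ ValuationSubring.mem_top f⁻¹
      have h1' := h1.resolve_left hf0
      have h2' := h2.resolve_left (inv_ne_zero hf0)
      rw [ordFun_inv w hmul hf0] at h2'
      omega
  obtain ⟨π, hπ⟩ := IsDiscreteValuationRing.exists_irreducible v.toValuationSubring
  have hπF : (π : F) ≠ 0 := by simpa using hπ.ne_zero
  have hunit : ∀ u : v.toValuationSubringˣ, w ((u : v.toValuationSubring) : F) = 0 := by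
    intro u
    have hu0 : ((u : v.toValuationSubring) : F) ≠ 0 := by simp
    have h1 : 0 ≤ w ((u : v.toValuationSubring) : F) :=
      ((hv _).mp (u : v.toValuationSubring).2).resolve_left hu0
    have hinv : (((u⁻¹ : v.toValuationSubringˣ) : v.toValuationSubring) : F)
        = ((u : v.toValuationSubring) : F)⁻¹ := by
      have : ((u : v.toValuationSubring) : F) * (((u⁻¹ : v.toValuationSubringˣ) :
          v.toValuationSubring) : F) = 1 := by
        have h := congrArg (Subtype.val) (u.mul_inv)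
        rwa [MulMemClass.coe_mul, OneMemClass.coe_one] at h
      exact eq_inv_of_mul_eq_one_right this
    have h2 : 0 ≤ w (((u⁻¹ : v.toValuationSubringˣ) : v.toValuationSubring) : F) :=
      ((hv _).mp ((u⁻¹ : v.toValuationSubringˣ) : v.toValuationSubring).2).resolve_left
        (by simp)
    rw [hinv, ordFun_inv w hmul hu0] at h2
    omega
  have hπnn : 0 ≤ w (π : F) := ((hv _).mp π.2).resolve_left hπF
  have hπpos : 0 < w (π : F) := by
    rcases hπnn.lt_or_eq with h | h
    · exact h
    exfalso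
    apply hπ.not_isUnit
    have hinvmem : (π : F)⁻¹ ∈ v.toValuationSubring := by
      rw [hv]; right; rw [ordFun_inv w hmul hπF]; omega
    refine isUnit_iff_exists_inv.mpr ⟨⟨_, hinvmem⟩, ?_⟩
    ext
    simp [mul_inv_cancel₀ hπF]
  refine ⟨v, (w (π : F)).toNat, by omega, fun f hf => ?_⟩
  obtain ⟨u, hu⟩ := v.exists_unit_mul_zpow hf hπ
  have hu0 : ((u : v.toValuationSubring) : F) ≠ 0 := by simp
  conv_lhs => rw [hu]
  rw [hmul _ _ hu0 (zpow_ne_zero _ hπF), hunit u, ordFun_zpow w hmul hπF, Int.toNat_of_nonneg hπnn]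
  ring

end OrdFun

end Fermat.Agent.S24.FF
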