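import Fermat.Agent.S24.FF.Setup

set_option autoImplicit false

open AlgebraicCurve IntermediateField IsDedekindDomain
open scoped IntermediateField.algebraAdjoinAdjoin KaehlerDifferential

namespace Fermat.Agent.S24.FF

variable (K : Type*) {F : Type*} [Field K] [Field F] [Algebra K F]

theorem finiteDimensional_of_transcendental (y : F) [FiniteDimensional K⟮y⟯ F]
    {f : F} (hf : Transcendental K f) : FiniteDimensional K⟮f⟯ F := by
  -- `F` is algebraic over `K[y]`, so the transcendence degree is at most one
  have h1 : Algebra.IsAlgebraic (Algebra.adjoin K {y}) F :=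
    (IntermediateField.isAlgebraic_adjoin_iff_top (F := K) (s := {y}) (S := F)).mp inferInstance
  have h2 : Algebra.trdeg K F ≤ 1 := by
    have := Algebra.IsAlgebraic.trdeg_le_cardinalMk K ({y} : Set F)
    simpa using this
  -- hence `{f}` is a transcendence basis
  have h3 : AlgebraicIndependent K (fun _ : Unit => f) :=
    algebraicIndependent_unique_type_iff.mpr hf
  have h4 : IsTranscendenceBasis K (fun _ : Unit => f) :=
    h3.isTranscendenceBasis_of_lift_trdeg_le_of_finite (by simpa using h2)
  have h5 : Algebra.IsAlgebraic K⟮f⟯ F := by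
    have := h4.isAlgebraic_field
    rwa [Set.range_const] at this
  -- `F` is a finitely generated field extension of `K`, hence of `K(f)`
  have h6 : Algebra.EssFiniteType K K⟮y⟯ :=
    IntermediateField.essFiniteType_iff.mpr ⟨{y}, by simp⟩
  have h7 : Algebra.EssFiniteType K F := Algebra.EssFiniteType.comp K K⟮y⟯ F
  have h8 : Algebra.EssFiniteType K⟮f⟯ F := Algebra.EssFiniteType.of_comp K K⟮f⟯ F
  exact Algebra.finite_of_essFiniteType_of_isAlgebraic

end Fermat.Agent.S24.FF
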