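import Fermat.Agent.S24.FF.Setup

set_option autoImplicit false

open AlgebraicCurve IntermediateField IsDedekindDomain
open scoped IntermediateField.algebraAdjoinAdjoin KaehlerDifferential

namespace Fermat.Agent.S24.FF

variable (K : Type*) {F : Type*} [Field K] [Field F] [Algebra K F]

/-- If the valuation ring of a place `v` is the valuation ring of a `ℤᵐ⁰`-valued valuation having
a uniformizer, then `v.ord = - log val`. -/
theorem ord_eq_of_valuationSubring_eq {K : Type*} [Field K] [Algebra K F]
    (v : Place K F) (val : Valuation F (WithZero (Multiplicative ℤ)))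
    (hv : v.toValuationSubring = val.valuationSubring)
    (hunif : ∃ π : F, val π = WithZero.exp (-1 : ℤ)) (f : F) :
    v.ord f = -(WithZero.log (val f)) := by
  rcases eq_or_ne f 0 with rfl | hf
  · simp
  obtain ⟨ϖ, hϖ⟩ := IsDiscreteValuationRing.exists_irreducible v.toValuationSubring
  have hmem : ∀ g : F, g ∈ v.toValuationSubring ↔ val g ≤ 1 := by
    intro g; rw [hv]; exact Valuation.mem_valuationSubring_iff _ _
  have hunit : ∀ u : v.toValuationSubringˣ, val ((u : v.toValuationSubring) : F) = 1 := by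
    intro u
    have h1 : val ((u : v.toValuationSubring) : F) ≤ 1 := (hmem _).mp (u : v.toValuationSubring).2
    have h2 : val (((u⁻¹ : v.toValuationSubringˣ) : v.toValuationSubring) : F) ≤ 1 :=
      (hmem _).mp ((u⁻¹ : v.toValuationSubringˣ) : v.toValuationSubring).2
    have h3 : ((u : v.toValuationSubring) : F) * (((u⁻¹ : v.toValuationSubringˣ) :
        v.toValuationSubring) : F) = 1 := by
      have h := congrArg (Subtype.val) (u.mul_inv)
      rwa [MulMemClass.coe_mul, OneMemClass.coe_one] at h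
    have h4 := congrArg val h3
    rw [map_mul, map_one] at h4
    exact le_antisymm h1 (by
      by_contra hlt
      rw [not_le] at hlt
      have : val ((u : v.toValuationSubring) : F) * val (((u⁻¹ : v.toValuationSubringˣ) :
        v.toValuationSubring) : F) < 1 := by
        calc _ ≤ val ((u : v.toValuationSubring) : F) * 1 := by gcongr
          _ = val ((u : v.toValuationSubring) : F) := mul_one _
          _ < 1 := hlt
      exact this.ne h4)
  have hϖF : (ϖ : F) ≠ 0 := by simpa using hϖ.ne_zero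
  have hvalϖ : val (ϖ : F) ≠ 0 := (Valuation.ne_zero_iff _).mpr hϖF
  have key : ∀ g : F, g ≠ 0 → WithZero.log (val g) = v.ord g * WithZero.log (val (ϖ : F)) := by
    intro g hg
    obtain ⟨u, hu⟩ := v.exists_unit_mul_zpow hg hϖ
    conv_lhs => rw [hu]
    rw [map_mul, hunit u, one_mul, map_zpow₀, WithZero.log_zpow, smul_eq_mul]
  obtain ⟨π, hπ⟩ := hunif
  have hπ0 : π ≠ 0 := by
    rintro rfl
    rw [map_zero] at hπ
    exact WithZero.exp_ne_zero hπ.symm
  have h1 := key π hπ0
  rw [hπ, WithZero.log_exp] at h1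
  have h2 : WithZero.log (val (ϖ : F)) ≤ 0 := by
    have := (hmem _).mp ϖ.2
    rw [← WithZero.exp_log hvalϖ, ← WithZero.exp_zero, WithZero.exp_le_exp] at this
    exact this
  have h3 : WithZero.log (val (ϖ : F)) = -1 := by
    have hdvd : WithZero.log (val (ϖ : F)) ∣ 1 := ⟨-(v.ord π), by linarith⟩
    rcases Int.isUnit_iff.mp (isUnit_of_dvd_one hdvd) with h | h
    · omega
    · exact h
  rw [key f hf, h3]
  ring

variable [CharZero K] (y : F) [FiniteDimensional K⟮y⟯ F]

/-- the place attached to a prime of the integral closure `Sy` of `K[y]` in `F` -/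
noncomputable def placeOf (P : HeightOneSpectrum (Sy K y)) : Place K F :=
  Place.ofHeightOneSpectrum (K := K) P

theorem placeOf_ord (P : HeightOneSpectrum (Sy K y)) (f : F) :
    (placeOf K y P).ord f = -(WithZero.log (P.valuation F f)) :=
  ord_eq_of_valuationSubring_eq (placeOf K y P) (P.valuation F) rfl
    (P.valuation_exists_uniformizer F) f

theorem placeOf_ord_nonneg (P : HeightOneSpectrum (Sy K y)) (s : Sy K y) :
    0 ≤ (placeOf K y P).ord (s : F) := by
  apply ord_nonneg_of_mem
  show (s : F) ∈ (P.valuation F).valuationSubring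
  rw [Valuation.mem_valuationSubring_iff]
  exact P.valuation_le_one s

theorem placeOf_ord_pos_iff (P : HeightOneSpectrum (Sy K y)) (s : Sy K y) (hs : s ≠ 0) :
    0 < (placeOf K y P).ord (s : F) ↔ s ∈ P.asIdeal := by
  have hsF : (s : F) ≠ 0 := by simpa using hs
  have hval : P.valuation F (s : F) ≠ 0 := (Valuation.ne_zero_iff _).mpr hsF
  rw [← P.valuation_lt_one_iff_mem (K := F), placeOf_ord]
  show _ ↔ P.valuation F (s : F) < 1
  conv_rhs => rw [← WithZero.exp_log hval, ← WithZero.exp_zero, WithZero.exp_lt_exp]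
  omega

theorem placeOf_injective : Function.Injective (placeOf K y) := by
  intro P Q h
  apply HeightOneSpectrum.ext
  ext s
  rcases eq_or_ne s 0 with rfl | hs
  · simp
  rw [← placeOf_ord_pos_iff K y P s hs, ← placeOf_ord_pos_iff K y Q s hs, h]

omit [CharZero K] [FiniteDimensional K⟮y⟯ F] in
theorem Ry_le (v : Place K F) (hv : 0 ≤ v.ord y) (r : Ry K y) :
    (r : F) ∈ v.toValuationSubring := by
  have hy : y ∈ v.toValuationSubring := mem_of_ord_nonneg v hv
  let A : Subalgebra K F :=
    { v.toValuationSubring.toSubring with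
      algebraMap_mem' := v.algebraMap_mem' }
  have : Algebra.adjoin K {y} ≤ A := Algebra.adjoin_le (by
    intro z hz
    rw [Set.mem_singleton_iff] at hz
    subst hz
    exact hy)
  exact this r.2

omit [CharZero K] [FiniteDimensional K⟮y⟯ F] in
theorem ord_nonneg_of_isIntegral (v : Place K F) (hv : 0 ≤ v.ord y) {f : F}
    (hf : IsIntegral (Ry K y) f) : 0 ≤ v.ord f := by
  apply ord_nonneg_of_mem
  let ι : Ry K y →+* v.toValuationSubring :=
    { toFun := fun r => ⟨(r : F), Ry_le K y v hv r⟩
      map_one' := rfl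
      map_mul' := fun _ _ => rfl
      map_zero' := rfl
      map_add' := fun _ _ => rfl }
  obtain ⟨p, hp, hpf⟩ := hf
  have hint : IsIntegral v.toValuationSubring f := by
    refine ⟨p.map ι, hp.map ι, ?_⟩
    rw [Polynomial.eval₂_map]
    have : (algebraMap v.toValuationSubring F).comp ι = algebraMap (Ry K y) F := rfl
    rw [this]
    exact hpf
  obtain ⟨a, ha⟩ := (IsIntegrallyClosed.isIntegral_iff (R := v.toValuationSubring) (K := F)).mp hint
  rw [← ha]
  exact a.2

theorem exists_placeOf_eq (v : Place K F) (hv : 0 ≤ v.ord y) :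
    ∃ P : HeightOneSpectrum (Sy K y), placeOf K y P = v := by
  let j : Sy K y →+* v.toValuationSubring :=
    { toFun := fun s => ⟨(s : F), mem_of_ord_nonneg v (ord_nonneg_of_isIntegral K y v hv s.2)⟩
      map_one' := rfl
      map_mul' := fun _ _ => rfl
      map_zero' := rfl
      map_add' := fun _ _ => rfl }
  let P₀ : Ideal (Sy K y) := (IsLocalRing.maximalIdeal v.toValuationSubring).comap j
  have hprime : P₀.IsPrime := Ideal.comap_isPrime _ _
  have hnotmem : ∀ t : Sy K y, t ∉ P₀ → IsUnit (j t) := by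
    intro t ht
    by_contra hu
    exact ht ((IsLocalRing.mem_maximalIdeal _).mpr hu)
  have hinv : ∀ t : Sy K y, t ∉ P₀ → ((t : F))⁻¹ ∈ v.toValuationSubring := by
    intro t ht
    obtain ⟨u, hu⟩ := hnotmem t ht
    have h3 : ((u : v.toValuationSubring) : F) * (((u⁻¹ : v.toValuationSubringˣ) :
        v.toValuationSubring) : F) = 1 := by
      have h := congrArg (Subtype.val) (u.mul_inv)
      rwa [MulMemClass.coe_mul, OneMemClass.coe_one] at h
    have h4 : ((u : v.toValuationSubring) : F) = (t : F) := by rw [hu]; rfl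
    rw [h4] at h3
    rw [← eq_inv_of_mul_eq_one_right h3]
    exact ((u⁻¹ : v.toValuationSubringˣ) : v.toValuationSubring).2
  have hne : P₀ ≠ ⊥ := by
    intro hbot
    apply v.ne_top'
    refine SetLike.ext fun g => ⟨fun _ => ValuationSubring.mem_top g, fun _ => ?_⟩
    obtain ⟨a, b, hb, hab⟩ := IsFractionRing.div_surjective (A := Sy K y) g
    rw [← hab, div_eq_mul_inv]
    have hb0 : b ≠ 0 := nonZeroDivisors.ne_zero hb
    have hbP : b ∉ P₀ := by rw [hbot]; simpa using hb0
    exact mul_mem (j a).2 (hinv b hbP)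
  refine ⟨⟨P₀, hprime, hne⟩, eq_of_le fun f hf => ?_⟩
  have hf' : (HeightOneSpectrum.valuation F (⟨P₀, hprime, hne⟩ : HeightOneSpectrum (Sy K y))) f ≤ 1 :=
    (Valuation.mem_valuationSubring_iff _ _).mp hf
  obtain ⟨n, d, hnd⟩ := HeightOneSpectrum.exists_primeCompl_mul_eq_of_integer _ f hf'
  have hd : (d : Sy K y) ∉ P₀ := d.2
  have hd0 : (((d : Sy K y)) : F) ≠ 0 := by
    intro h0
    apply hd
    have : (d : Sy K y) = 0 := by exact_mod_cast h0
    rw [this]; exact zero_mem _
  have : f = (n : F) * (((d : Sy K y)) : F)⁻¹ := by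
    rw [eq_mul_inv_iff_mul_eq₀ hd0]
    exact hnd
  rw [this]
  exact mul_mem (j n).2 (hinv _ hd)

theorem exists_div_of_ord_nonneg (v : Place K F) (hv : 0 ≤ v.ord y) {f : F} (hf : 0 ≤ v.ord f) :
    ∃ s t : F, IsIntegral (Ry K y) s ∧ IsIntegral (Ry K y) t ∧ t ≠ 0 ∧ v.ord t = 0 ∧ f = s / t := by
  obtain ⟨P, rfl⟩ := exists_placeOf_eq K y v hv
  have hf' : P.valuation F f ≤ 1 :=
    (Valuation.mem_valuationSubring_iff _ _).mp (mem_of_ord_nonneg _ hf)
  obtain ⟨n, d, hnd⟩ := HeightOneSpectrum.exists_primeCompl_mul_eq_of_integer _ f hf'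
  have hd : (d : Sy K y) ∉ P.asIdeal := d.2
  have hd00 : (d : Sy K y) ≠ 0 := by
    intro h0; apply hd; rw [h0]; exact zero_mem _
  have hd0 : (((d : Sy K y)) : F) ≠ 0 := by simpa using hd00
  refine ⟨n, (d : Sy K y), n.2, (d : Sy K y).2, hd0, ?_, ?_⟩
  · have h1 := placeOf_ord_nonneg K y P d
    have h2 := (placeOf_ord_pos_iff K y P d hd00).not.mpr hd
    omega
  · rw [eq_div_iff hd0]; exact hnd

end Fermat.Agent.S24.FF
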