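import Fermat.Agent.S24.FF.Setup

set_option autoImplicit false

open AlgebraicCurve IntermediateField IsDedekindDomain
open scoped IntermediateField.algebraAdjoinAdjoin KaehlerDifferential

namespace Fermat.Agent.S24.FF

variable (K : Type*) {F : Type*} [Field K] [Field F] [Algebra K F]

theorem adjoin_simple_inv (x : F) : K⟮x⁻¹⟯ = K⟮x⟯ := by
  apply le_antisymm
  · rw [adjoin_simple_le_iff]
    exact inv_mem (mem_adjoin_simple_self K x)
  · rw [adjoin_simple_le_iff]
    have := inv_mem (mem_adjoin_simple_self K x⁻¹)
    rwa [inv_inv] at this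

theorem adjoin_simple_sub_algebraMap (x : F) (c : K) : K⟮x - algebraMap K F c⟯ = K⟮x⟯ := by
  apply le_antisymm
  · rw [adjoin_simple_le_iff]
    exact sub_mem (mem_adjoin_simple_self K x) (IntermediateField.algebraMap_mem _ c)
  · rw [adjoin_simple_le_iff]
    have := add_mem (mem_adjoin_simple_self K (x - algebraMap K F c))
      (IntermediateField.algebraMap_mem K⟮x - algebraMap K F c⟯ c)
    rwa [sub_add_cancel] at this

theorem transcendental_inv {x : F} (hx : Transcendental K x) : Transcendental K x⁻¹ := by
  intro h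
  apply hx
  have := h.inv
  rwa [inv_inv] at this

theorem transcendental_sub_algebraMap {x : F} (hx : Transcendental K x) (c : K) :
    Transcendental K (x - algebraMap K F c) := by
  intro h
  apply hx
  have := h.add (isAlgebraic_algebraMap (A := F) c)
  rwa [sub_add_cancel] at this

theorem finiteDimensional_congr {x y : F} (h : K⟮x⟯ = K⟮y⟯) [FiniteDimensional K⟮x⟯ F] :
    FiniteDimensional K⟮y⟯ F := by
  rw [← h]; infer_instance

theorem finrank_congr {x y : F} (h : K⟮x⟯ = K⟮y⟯) :
    Module.finrank K⟮x⟯ F = Module.finrank K⟮y⟯ F := by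
  rw [h]

end Fermat.Agent.S24.FF
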