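import Fermat.Agent.S24.FF.PlacePrime
import Fermat.Agent.S24.FF.Adjoin

set_option autoImplicit false

open AlgebraicCurve IntermediateField IsDedekindDomain
open scoped IntermediateField.algebraAdjoinAdjoin KaehlerDifferential

namespace Fermat.Agent.S24.FF

variable (K : Type*) {F : Type*} [Field K] [Field F] [Algebra K F]

section General

variable {K}
variable (v : Place K F)

theorem DegOne.isUnit_iff_ord_eq_zero {a : v.toValuationSubring} (ha : a ≠ 0) :
    IsUnit a ↔ v.ord (a : F) = 0 := by
  have ha' : (a : F) ≠ 0 := by simpa using ha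
  rw [← v.adicValuation_coe_eq_one_iff, adicValuation_eq_exp v ha', ← WithZero.exp_zero,
    WithZero.exp_inj]
  omega

theorem DegOne.residue_eq_zero_iff {a : v.toValuationSubring} (ha : a ≠ 0) :
    IsLocalRing.residue v.toValuationSubring a = 0 ↔ 0 < v.ord (a : F) := by
  rw [IsLocalRing.residue_eq_zero_iff, IsLocalRing.mem_maximalIdeal, mem_nonunits_iff,
    DegOne.isUnit_iff_ord_eq_zero v ha]
  have := ord_nonneg_of_mem v a.2
  omega

/-- A polynomial relation over `K[X]` for an element of `O_v` algebraic over `K(x)`, `x ∈ O_v`. -/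
theorem DegOne.exists_relation (x f : v.toValuationSubring) (hf : IsAlgebraic K⟮(x : F)⟯ (f : F)) :
    ∃ P : Polynomial (Polynomial K), P ≠ 0 ∧
      Polynomial.eval₂ (Polynomial.aeval (R := K) x).toRingHom f P = 0 := by
  have h1 : IsAlgebraic (Ry K (x : F)) (f : F) :=
    (IsFractionRing.isAlgebraic_iff (Ry K (x : F)) K⟮(x : F)⟯ F).mpr hf
  obtain ⟨p, hp0, hp⟩ := h1
  obtain ⟨P, rfl⟩ := Polynomial.map_surjective (polyToRy K (x : F)).toRingHom
    (polyToRy_surjective K (x : F)) p
  refine ⟨P, fun h => hp0 (by rw [h, Polynomial.map_zero]), ?_⟩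
  apply Subtype.val_injective
  have e : (v.toValuationSubring.subtype).comp (Polynomial.aeval (R := K) x).toRingHom
      = (algebraMap (Ry K (x : F)) F).comp (polyToRy K (x : F)).toRingHom := by
    apply Polynomial.ringHom_ext
    · intro a
      simp
    · simp
  have h2 : ((Polynomial.eval₂ (Polynomial.aeval (R := K) x).toRingHom f P :
      v.toValuationSubring) : F)
      = Polynomial.eval₂ ((v.toValuationSubring.subtype).comp
          (Polynomial.aeval (R := K) x).toRingHom) (f : F) P :=
    Polynomial.hom_eval₂ P _ v.toValuationSubring.subtype f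
  rw [h2, e, ← Polynomial.eval₂_map]
  exact hp

/-- If `x` has a zero at `v` and `f ∈ O_v` is algebraic over `K(x)`, then the residue class of `f`
is algebraic over `K`. -/
theorem DegOne.isAlgebraic_residue_of_pos {x : F} (hx : 0 < v.ord x) (f : v.toValuationSubring)
    (hf : IsAlgebraic K⟮x⟯ (f : F)) :
    IsAlgebraic K (IsLocalRing.residue v.toValuationSubring f) := by
  classical
  have hx0 : x ≠ 0 := ne_zero_of_ord_ne_zero v hx.ne'
  have hxO : x ∈ v.toValuationSubring := mem_of_ord_nonneg v hx.le
  set xO : v.toValuationSubring := ⟨x, hxO⟩ with hxOdef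
  have hxO0 : xO ≠ 0 := by
    intro h; exact hx0 (congrArg Subtype.val h)
  obtain ⟨P, hP0, hP⟩ := DegOne.exists_relation v xO f hf
  -- the evaluation map `K[X] → O_v`
  set φ : Polynomial K →+* v.toValuationSubring := (Polynomial.aeval (R := K) xO).toRingHom
    with hφ
  have hφX : φ Polynomial.X = xO := by simp [φ]
  have hφC : ∀ a : K, φ (Polynomial.C a) = algebraMap K _ a := by intro a; simp [φ]
  -- divide by the largest power of `X`
  have hfin : FiniteMultiplicity (Polynomial.C (Polynomial.X : Polynomial K)) P := by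
    apply FiniteMultiplicity.of_not_isUnit _ hP0
    intro h
    rw [Polynomial.isUnit_C] at h
    exact Polynomial.not_isUnit_X h
  obtain ⟨Q, hQ, hQdvd⟩ := hfin.exists_eq_pow_mul_and_not_dvd
  have hQ0 : Polynomial.eval₂ φ f Q = 0 := by
    rw [hQ, Polynomial.eval₂_mul, Polynomial.eval₂_pow, Polynomial.eval₂_C, hφX] at hP
    exact (mul_eq_zero.mp hP).resolve_left (pow_ne_zero _ hxO0)
  refine ⟨Q.map (Polynomial.evalRingHom 0), ?_, ?_⟩
  · intro h
    apply hQdvd
    rw [Polynomial.C_dvd_iff_dvd_coeff]
    intro i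
    rw [Polynomial.X_dvd_iff, Polynomial.coeff_zero_eq_eval_zero]
    have := congrArg (fun q => Polynomial.coeff q i) h
    simpa using this
  · have e : (IsLocalRing.residue v.toValuationSubring).comp φ
        = (algebraMap K v.ResidueField).comp (Polynomial.evalRingHom 0) := by
      apply Polynomial.ringHom_ext
      · intro a
        simp [hφC]
        rfl
      · simp [hφX]
        rw [DegOne.isUnit_iff_ord_eq_zero v hxO0]; exact hx.ne'
    have h2 := Polynomial.hom_eval₂ Q φ (IsLocalRing.residue v.toValuationSubring) f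
    rw [hQ0, map_zero, e, ← Polynomial.eval₂_map] at h2
    exact h2.symm

/-- If `F` is algebraic over `K(y)` and `y ∈ O_v`, the residue class of `y` is algebraic over `K`. -/
theorem DegOne.isAlgebraic_residue_self (y : v.toValuationSubring)
    [Algebra.IsAlgebraic K⟮(y : F)⟯ F] :
    IsAlgebraic K (IsLocalRing.residue v.toValuationSubring y) := by
  classical
  obtain ⟨π, hπ⟩ := IsDiscreteValuationRing.exists_irreducible v.toValuationSubring
  obtain ⟨P, hP0, hP⟩ := DegOne.exists_relation v y π (Algebra.IsAlgebraic.isAlgebraic _)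
  set φ : Polynomial K →+* v.toValuationSubring := (Polynomial.aeval (R := K) y).toRingHom
    with hφ
  have hfin : FiniteMultiplicity (Polynomial.X : Polynomial (Polynomial K)) P :=
    FiniteMultiplicity.of_not_isUnit Polynomial.not_isUnit_X hP0
  obtain ⟨Q, hQ, hQdvd⟩ := hfin.exists_eq_pow_mul_and_not_dvd
  have hQ0 : Polynomial.eval₂ φ π Q = 0 := by
    rw [hQ, Polynomial.eval₂_mul, Polynomial.eval₂_pow, Polynomial.eval₂_X] at hP
    exact (mul_eq_zero.mp hP).resolve_left (pow_ne_zero _ hπ.ne_zero)
  rw [Polynomial.X_dvd_iff] at hQdvd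
  refine ⟨Q.coeff 0, hQdvd, ?_⟩
  have h3 : IsLocalRing.residue v.toValuationSubring π = 0 := by
    rw [IsLocalRing.residue_eq_zero_iff, IsLocalRing.mem_maximalIdeal, mem_nonunits_iff]
    exact hπ.not_isUnit
  have h4 : Polynomial.eval₂ φ π Q = Polynomial.eval₂ φ π Q.divX * π + φ (Q.coeff 0) := by
    conv_lhs => rw [← Polynomial.divX_mul_X_add Q]
    rw [Polynomial.eval₂_add, Polynomial.eval₂_mul, Polynomial.eval₂_X, Polynomial.eval₂_C]
  have h5 := congrArg (IsLocalRing.residue v.toValuationSubring) h4
  rw [hQ0, map_zero, map_add, map_mul, h3, mul_zero, zero_add] at h5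
  have e : ∀ q : Polynomial K, IsLocalRing.residue v.toValuationSubring (φ q)
      = Polynomial.aeval (IsLocalRing.residue v.toValuationSubring y) q := by
    intro q
    have : (IsLocalRing.residue v.toValuationSubring).comp φ
        = (Polynomial.aeval (R := K) (IsLocalRing.residue v.toValuationSubring y)).toRingHom := by
      apply Polynomial.ringHom_ext
      · intro a
        simp [φ]
        rfl
      · simp [φ]
    exact congrArg (fun g : Polynomial K →+* v.ResidueField => g q) this
  rw [← e]; exact h5.symm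

end General

variable [IsAlgClosed K]

/-- An element of a domain which is algebraic over an algebraically closed field lies in it. -/
theorem DegOne.exists_algebraMap_eq_of_isAlgebraic {A : Type*} [CommRing A] [IsDomain A] [Algebra K A]
    {a : A} (ha : IsAlgebraic K a) : ∃ c : K, algebraMap K A c = a := by
  have hi : IsIntegral K a := ha.isIntegral
  have h : (minpoly K a).degree = 1 :=
    IsAlgClosed.degree_eq_one_of_irreducible K (minpoly.irreducible hi)
  exact minpoly.mem_range_of_degree_eq_one K a h

/-- There is a generator `x` of `K(y)` with a zero at `v`. -/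
theorem DegOne.exists_pos_adjoin_eq (y : F) (hy : Transcendental K y) [FiniteDimensional K⟮y⟯ F]
    (v : Place K F) : ∃ x : F, 0 < v.ord x ∧ K⟮x⟯ = K⟮y⟯ := by
  rcases lt_or_ge (v.ord y) 0 with h | h
  · exact ⟨y⁻¹, by rw [v.ord_inv]; omega, adjoin_simple_inv K y⟩
  · have hyO : y ∈ v.toValuationSubring := mem_of_ord_nonneg v h
    have halg : Algebra.IsAlgebraic K⟮((⟨y, hyO⟩ : v.toValuationSubring) : F)⟯ F := by
      show Algebra.IsAlgebraic K⟮y⟯ F
      infer_instance
    obtain ⟨c, hc⟩ := DegOne.exists_algebraMap_eq_of_isAlgebraic K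
      (DegOne.isAlgebraic_residue_self v (⟨y, hyO⟩ : v.toValuationSubring))
    refine ⟨y - algebraMap K F c, ?_, adjoin_simple_sub_algebraMap K y c⟩
    have hne : (⟨y, hyO⟩ : v.toValuationSubring) - algebraMap K v.toValuationSubring c ≠ 0 := by
      intro h0
      have h1 : y - algebraMap K F c = 0 := congrArg Subtype.val h0
      apply hy
      rw [sub_eq_zero.mp h1]
      exact isAlgebraic_algebraMap c
    have := (DegOne.residue_eq_zero_iff v hne).mp (by
      rw [map_sub, ← hc, sub_eq_zero]; rfl)
    exact this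

theorem DegOne.exists_residue_eq (y : F) (hy : Transcendental K y) [FiniteDimensional K⟮y⟯ F]
    (v : Place K F) (f : v.toValuationSubring) :
    ∃ c : K, algebraMap K v.ResidueField c = IsLocalRing.residue v.toValuationSubring f := by
  obtain ⟨x, hx, hxy⟩ := DegOne.exists_pos_adjoin_eq K y hy v
  have : FiniteDimensional K⟮x⟯ F := finiteDimensional_congr K hxy.symm
  exact DegOne.exists_algebraMap_eq_of_isAlgebraic K
    (DegOne.isAlgebraic_residue_of_pos v hx f (Algebra.IsAlgebraic.isAlgebraic _))

variable [CharZero K]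

theorem deg_eq_one (y : F) (hy : Transcendental K y) [FiniteDimensional K⟮y⟯ F]
    (v : Place K F) : v.deg = 1 := by
  unfold Place.deg
  rw [finrank_eq_one_iff_of_nonzero' (1 : v.ResidueField) one_ne_zero]
  intro w
  obtain ⟨f, rfl⟩ := IsLocalRing.residue_surjective w
  obtain ⟨c, hc⟩ := DegOne.exists_residue_eq K y hy v f
  exact ⟨c, by rw [Algebra.smul_def, mul_one, hc]⟩

theorem exists_sub_ord_pos (y : F) (hy : Transcendental K y) [FiniteDimensional K⟮y⟯ F]
    (v : Place K F) {f : F} (hf : 0 ≤ v.ord f) :
    ∃ c : K, f = algebraMap K F c ∨ 0 < v.ord (f - algebraMap K F c) := by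
  have hfO : f ∈ v.toValuationSubring := mem_of_ord_nonneg v hf
  obtain ⟨c, hc⟩ := DegOne.exists_residue_eq K y hy v ⟨f, hfO⟩
  refine ⟨c, ?_⟩
  by_cases h0 : (⟨f, hfO⟩ : v.toValuationSubring) - algebraMap K v.toValuationSubring c = 0
  · left
    have h1 : f - algebraMap K F c = 0 := congrArg Subtype.val h0
    exact sub_eq_zero.mp h1
  · right
    have := (DegOne.residue_eq_zero_iff v h0).mp (by
      rw [map_sub, ← hc, sub_eq_zero]; rfl)
    exact this

end Fermat.Agent.S24.FF
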