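import Fermat.Agent.S24.FF.Setup

set_option autoImplicit false
set_option linter.style.haveILetI false
set_option linter.unusedSectionVars false
set_option linter.unusedVariables false

open AlgebraicCurve IntermediateField IsDedekindDomain
open scoped IntermediateField.algebraAdjoinAdjoin KaehlerDifferential

namespace Fermat.Agent.S24.FF

variable (K : Type*) {F : Type*} [Field K] [Field F] [Algebra K F]

variable [CharZero K]

/-- `F` is formally étale over `K[y]`. -/
theorem formallyEtale_Ry (y : F) [FiniteDimensional K⟮y⟯ F] :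
    Algebra.FormallyEtale (Ry K y) F := by
  have h1 : Algebra.FormallyEtale (Ry K y) K⟮y⟯ :=
    Algebra.FormallyEtale.of_isLocalization (nonZeroDivisors (Ry K y))
  have h2 : Algebra.FormallyEtale K⟮y⟯ F := Algebra.FormallyEtale.of_isSeparable _ F
  exact Algebra.FormallyEtale.comp (Ry K y) K⟮y⟯ F

/-- The derivation `d/dy : K[y] → F`. -/
noncomputable def derivRy (y : F) (hy : Transcendental K y) : Derivation K (Ry K y) F :=
  Derivation.mk'
    ((Polynomial.aeval y).toLinearMap ∘ₗ (Polynomial.derivative (R := K)) ∘ₗ
      (Polynomial.algEquivOfTranscendental K y hy).symm.toLinearMap)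
    (by
      intro a b
      obtain ⟨p, rfl⟩ := (Polynomial.algEquivOfTranscendental K y hy).surjective a
      obtain ⟨q, rfl⟩ := (Polynomial.algEquivOfTranscendental K y hy).surjective b
      have hc : ∀ r : Polynomial K,
          ((Polynomial.algEquivOfTranscendental K y hy r : Ry K y) : F) = Polynomial.aeval y r := by
        intro r
        rw [Polynomial.algEquivOfTranscendental_apply]
        exact (Polynomial.aeval_algHom_apply (Ry K y).val _ r).symm
      simp only [LinearMap.comp_apply, AlgEquiv.toLinearMap_apply, AlgHom.toLinearMap_apply,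
        ← map_mul, AlgEquiv.symm_apply_apply, Polynomial.derivative_mul, map_add,
        Algebra.smul_def]
      rw [map_mul, map_mul]
      show _ = ((Polynomial.algEquivOfTranscendental K y hy p : Ry K y) : F) * _ +
        ((Polynomial.algEquivOfTranscendental K y hy q : Ry K y) : F) * _
      rw [hc, hc]
      ring)

theorem derivRy_yR (y : F) (hy : Transcendental K y) : derivRy K y hy (yR K y) = 1 := by
  have h : (Polynomial.algEquivOfTranscendental K y hy).symm (yR K y) = Polynomial.X :=
    Polynomial.algEquivOfTranscendental_symm_gen K y hy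
  show Polynomial.aeval y (Polynomial.derivative
    ((Polynomial.algEquivOfTranscendental K y hy).symm (yR K y))) = 1
  rw [h]
  simp

theorem D_ne_zero (y : F) (hy : Transcendental K y) [FiniteDimensional K⟮y⟯ F] :
    KaehlerDifferential.D K F y ≠ 0 := by
  intro h0
  haveI := formallyEtale_Ry K y
  let e := KaehlerDifferential.tensorKaehlerEquivOfFormallyEtale K (Ry K y) F
  have h1 : e.symm (KaehlerDifferential.D K F (algebraMap (Ry K y) F (yR K y))) =
      1 ⊗ₜ KaehlerDifferential.D K (Ry K y) (yR K y) :=
    KaehlerDifferential.tensorKaehlerEquivOfFormallyEtale_symm_D_algebraMap K (Ry K y) F (yR K y)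
  have h2 : algebraMap (Ry K y) F (yR K y) = y := rfl
  rw [h2, h0, map_zero] at h1
  have h3 := congrArg ((derivRy K y hy).liftKaehlerDifferential.liftBaseChange F) h1
  rw [map_zero, LinearMap.liftBaseChange_tmul, Derivation.liftKaehlerDifferential_comp_D,
    derivRy_yR, one_smul] at h3
  exact zero_ne_one h3

theorem exists_eq_smul_D (y : F) (hy : Transcendental K y) [FiniteDimensional K⟮y⟯ F]
    (ω : Ω[F⁄K]) : ∃ g : F, ω = g • KaehlerDifferential.D K F y := by
  haveI := formallyEtale_Ry K y
  let e := KaehlerDifferential.tensorKaehlerEquivOfFormallyEtale K (Ry K y) F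
  obtain ⟨t, rfl⟩ := e.surjective ω
  have key : ∀ η : Ω[Ry K y⁄K], ∃ g : F,
      KaehlerDifferential.map K K (Ry K y) F η = g • KaehlerDifferential.D K F y := by
    intro η
    have hη : η ∈ Submodule.span (Ry K y) (Set.range (KaehlerDifferential.D K (Ry K y))) := by
      rw [KaehlerDifferential.span_range_derivation]; exact Submodule.mem_top
    induction hη using Submodule.span_induction with
    | mem x hx =>
      obtain ⟨r, rfl⟩ := hx
      obtain ⟨p, hp⟩ := exists_aeval_eq K y r
      refine ⟨Polynomial.aeval y (Polynomial.derivative p), ?_⟩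
      rw [KaehlerDifferential.map_D]
      have : algebraMap (Ry K y) F r = Polynomial.aeval y p := hp.symm
      rw [this, Derivation.map_aeval]
    | zero => exact ⟨0, by simp⟩
    | add x z _ _ hx hz =>
      obtain ⟨g, hg⟩ := hx
      obtain ⟨g', hg'⟩ := hz
      exact ⟨g + g', by rw [map_add, hg, hg', add_smul]⟩
    | smul a x _ hx =>
      obtain ⟨g, hg⟩ := hx
      refine ⟨(a : F) * g, ?_⟩
      rw [map_smul, hg, mul_smul]
      rfl
  induction t using TensorProduct.induction_on with
  | zero => exact ⟨0, by simp⟩
  | tmul a η =>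
    obtain ⟨g, hg⟩ := key η
    refine ⟨a * g, ?_⟩
    show KaehlerDifferential.mapBaseChange K (Ry K y) F (a ⊗ₜ η) = _
    rw [KaehlerDifferential.mapBaseChange_tmul, hg, mul_smul]
  | add x z hx hz =>
    obtain ⟨g, hg⟩ := hx
    obtain ⟨g', hg'⟩ := hz
    exact ⟨g + g', by rw [map_add, hg, hg', add_smul]⟩

end Fermat.Agent.S24.FF
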