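import Fermat.Agent.S24.FF.PlacePrime
import Fermat.Agent.S24.FF.DegOne
import Fermat.Agent.S24.FF.Differential
import Fermat.Agent.S24.FF.FiniteOver

set_option autoImplicit false

open AlgebraicCurve IntermediateField IsDedekindDomain
open scoped IntermediateField.algebraAdjoinAdjoin KaehlerDifferential

namespace Fermat.Agent.S24.FF

variable (K : Type*) {F : Type*} [Field K] [Field F] [Algebra K F]

namespace OrdDeriv

/-- an element of nonzero order is transcendental -/
theorem transcendental_of_ord_ne_zero [IsAlgClosed K] (v : Place K F) {π : F} (hπ : v.ord π ≠ 0) :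
    Transcendental K π := by
  intro halg
  have h1 : (minpoly K π).degree = 1 :=
    IsAlgClosed.degree_eq_one_of_irreducible K (minpoly.irreducible halg.isIntegral)
  obtain ⟨c, hc⟩ := minpoly.mem_range_of_degree_eq_one K π h1
  apply hπ
  rw [← hc, ord_algebraMap]

/-- the derivation `d/dπ` -/
theorem exists_derivation [CharZero K] (π : F) (hπ : Transcendental K π)
    [FiniteDimensional K⟮π⟯ F] :
    ∃ δ : Derivation K F F, δ π = 1 ∧
      ∀ f c : F, KaehlerDifferential.D K F f = c • KaehlerDifferential.D K F π → δ f = c := by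
  have h0 := D_ne_zero K π hπ
  obtain ⟨φ, hφ⟩ : ∃ φ : Module.Dual F (Ω[F⁄K]), φ (KaehlerDifferential.D K F π) ≠ 0 := by
    by_contra hcon
    push Not at hcon
    exact h0 ((Module.forall_dual_apply_eq_zero_iff F _).1 hcon)
  refine ⟨((φ (KaehlerDifferential.D K F π))⁻¹ • φ).compDer (KaehlerDifferential.D K F), ?_, ?_⟩
  · simp [hφ]
  · intro f c h
    simp [h]
    field_simp

variable {K}

/-- the valuation ring as a `K`-subalgebra -/
def valSubalgebra (v : Place K F) : Subalgebra K F where
  toSubsemiring := v.toValuationSubring.toSubring.toSubsemiring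
  algebraMap_mem' := v.algebraMap_mem'

theorem mem_valSubalgebra (v : Place K F) {f : F} : f ∈ valSubalgebra v ↔ 0 ≤ v.ord f :=
  (ord_nonneg_iff v).symm

theorem eventually_pow_mul_mem (v : Place K F) {π : F} (hπ : v.ord π = 1) (x : F) :
    ∀ᶠ n : ℕ in Filter.atTop, π ^ n * x ∈ valSubalgebra v := by
  have hπ0 : π ≠ 0 := ne_zero_of_ord_ne_zero v (by omega)
  rcases eq_or_ne x 0 with rfl | hx
  · simp [zero_mem]
  filter_upwards [Filter.eventually_ge_atTop (-(v.ord x)).toNat] with n hn
  rw [mem_valSubalgebra, v.ord_mul (pow_ne_zero _ hπ0) hx, ord_pow, hπ]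
  have := Int.self_le_toNat (-(v.ord x))
  omega

end OrdDeriv

open OrdDeriv

variable [IsAlgClosed K] [CharZero K]

namespace OrdDeriv

variable {K}

omit [IsAlgClosed K] in
/-- bounded denominators on the integral closure of `K[π]` -/
theorem exists_bound_integral (v : Place K F) {π : F} (hπ : v.ord π = 1)
    [FiniteDimensional K⟮π⟯ F] (δ : Derivation K F F) (hδ : δ π = 1) :
    ∃ C : ℕ, ∀ s : F, IsIntegral (Ry K π) s → π ^ C * δ s ∈ valSubalgebra v := by
  classical
  have hπA : π ∈ valSubalgebra v := by rw [mem_valSubalgebra, hπ]; exact zero_le_one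
  have hRy : ∀ r : Ry K π, (r : F) ∈ valSubalgebra v ∧ δ (r : F) ∈ valSubalgebra v := by
    intro r
    obtain ⟨p, hp⟩ := exists_aeval_eq K π r
    have hmem : ∀ q : Polynomial K, Polynomial.aeval π q ∈ valSubalgebra v := fun q =>
      (Algebra.adjoin_le (Set.singleton_subset_iff.2 hπA) :
        Algebra.adjoin K {π} ≤ valSubalgebra v) (Polynomial.aeval_mem_adjoin_singleton K π)
    refine ⟨hp ▸ hmem p, ?_⟩
    rw [← hp, Derivation.map_aeval, hδ, smul_eq_mul, mul_one]
    exact hmem _
  obtain ⟨S, hS⟩ := (Module.Finite.fg_top : (⊤ : Submodule (Ry K π) (Sy K π)).FG)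
  have hev : ∀ᶠ n : ℕ in Filter.atTop, ∀ s ∈ S, π ^ n * δ ((s : Sy K π) : F) ∈ valSubalgebra v :=
    (Filter.eventually_all_finset S).2 fun s _ => eventually_pow_mul_mem v hπ _
  obtain ⟨C, hC⟩ := hev.exists
  refine ⟨C, fun s hs => ?_⟩
  have hsmem : (⟨s, hs⟩ : Sy K π) ∈ Submodule.span (Ry K π) (S : Set (Sy K π)) := by
    rw [hS]; trivial
  have key : ∀ t : Sy K π, t ∈ Submodule.span (Ry K π) (S : Set (Sy K π)) →
      π ^ C * δ (t : F) ∈ valSubalgebra v := by
    intro t ht
    induction ht using Submodule.span_induction with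
    | mem x hx => exact hC x hx
    | zero => simp [zero_mem]
    | add x y _ _ hx hy =>
      have : π ^ C * δ ((x + y : Sy K π) : F) = π ^ C * δ (x : F) + π ^ C * δ (y : F) := by
        rw [← mul_add, ← map_add]; rfl
      rw [this]
      exact add_mem hx hy
    | smul r x _ hx =>
      have hxA : (x : F) ∈ valSubalgebra v := by
        rw [mem_valSubalgebra]
        exact ord_nonneg_of_isIntegral K π v (by rw [hπ]; exact zero_le_one) x.2
      have : π ^ C * δ ((r • x : Sy K π) : F)
          = (r : F) * (π ^ C * δ (x : F)) + π ^ C * ((x : F) * δ (r : F)) := by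
        have h1 : ((r • x : Sy K π) : F) = (r : F) * (x : F) := rfl
        rw [h1, Derivation.leibniz, smul_eq_mul, smul_eq_mul]
        ring
      rw [this]
      exact add_mem (mul_mem (hRy r).1 hx) (mul_mem (pow_mem hπA _) (mul_mem hxA (hRy r).2))
  exact key ⟨s, hs⟩ hsmem

omit [IsAlgClosed K] in
/-- bounded denominators on the valuation ring -/
theorem exists_bound (v : Place K F) {π : F} (hπ : v.ord π = 1)
    [FiniteDimensional K⟮π⟯ F] (δ : Derivation K F F) (hδ : δ π = 1) :
    ∃ C : ℕ, ∀ f ∈ valSubalgebra v, π ^ C * δ f ∈ valSubalgebra v := by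
  obtain ⟨C, hC⟩ := exists_bound_integral v hπ δ hδ
  refine ⟨C, fun f hf => ?_⟩
  have hπ0 : 0 ≤ v.ord π := by rw [hπ]; exact zero_le_one
  obtain ⟨s, t, hs, ht, ht0, htv, rfl⟩ :=
    exists_div_of_ord_nonneg K π v hπ0 ((mem_valSubalgebra v).1 hf)
  have hsA : s ∈ valSubalgebra v := (mem_valSubalgebra v).2 (ord_nonneg_of_isIntegral K π v hπ0 hs)
  have htA : t ∈ valSubalgebra v := (mem_valSubalgebra v).2 (ord_nonneg_of_isIntegral K π v hπ0 ht)
  have htinv : t⁻¹ ∈ valSubalgebra v := by
    rw [mem_valSubalgebra, v.ord_inv, htv]; simp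
  have : π ^ C * δ (s / t) = t⁻¹ ^ 2 * (t * (π ^ C * δ s) - s * (π ^ C * δ t)) := by
    rw [Derivation.leibniz_div]
    simp only [smul_eq_mul]
    ring
  rw [this]
  exact mul_mem (pow_mem htinv 2) (sub_mem (mul_mem htA (hC s hs)) (mul_mem hsA (hC t ht)))

/-- `d/dπ` preserves the valuation ring -/
theorem deriv_mem (y : F) (hy : Transcendental K y) [FiniteDimensional K⟮y⟯ F]
    (v : Place K F) {π : F} (hπ : v.ord π = 1)
    [FiniteDimensional K⟮π⟯ F] (δ : Derivation K F F) (hδ : δ π = 1) :
    ∀ f ∈ valSubalgebra v, δ f ∈ valSubalgebra v := by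
  have hπ0 : π ≠ 0 := ne_zero_of_ord_ne_zero v (by omega)
  have hπA : π ∈ valSubalgebra v := by rw [mem_valSubalgebra, hπ]; exact zero_le_one
  obtain ⟨C, hC⟩ := exists_bound v hπ δ hδ
  induction C with
  | zero => simpa using hC
  | succ C ih =>
    apply ih
    intro f hf
    obtain ⟨c, hc⟩ := exists_sub_ord_pos K y hy v ((mem_valSubalgebra v).1 hf)
    obtain ⟨g, hg, hfg⟩ : ∃ g ∈ valSubalgebra v, f = algebraMap K F c + π * g := by
      rcases hc with hc | hc
      · exact ⟨0, zero_mem _, by simp [hc]⟩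
      · refine ⟨(f - algebraMap K F c) / π, ?_, by field_simp; ring⟩
        have hne : f - algebraMap K F c ≠ 0 := ne_zero_of_ord_ne_zero v hc.ne'
        rw [mem_valSubalgebra, ord_div v hne hπ0, hπ]
        omega
    have : π ^ C * δ f = π ^ C * g + π ^ (C + 1) * δ g := by
      rw [hfg, map_add, Derivation.map_algebraMap, Derivation.leibniz, hδ]
      simp only [smul_eq_mul]
      ring
    rw [this]
    exact add_mem (mul_mem (pow_mem hπA _) hg) (hC g hg)

end OrdDeriv

theorem ord_of_D_eq_smul_D (y : F) (hy : Transcendental K y) [FiniteDimensional K⟮y⟯ F]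
    (v : Place K F) {π z c : F} (hπ : v.ord π = 1) (hz : v.ord z ≠ 0)
    (h : KaehlerDifferential.D K F z = c • KaehlerDifferential.D K F π) :
    v.ord c = v.ord z - 1 := by
  have hπt : Transcendental K π := transcendental_of_ord_ne_zero K v (by omega)
  have : FiniteDimensional K⟮π⟯ F := finiteDimensional_of_transcendental K y hπt
  obtain ⟨δ, hδ, hδ2⟩ := exists_derivation K π hπt
  have hc : δ z = c := hδ2 z c h
  have hπ0 : π ≠ 0 := ne_zero_of_ord_ne_zero v (by omega)
  have hz0 : z ≠ 0 := ne_zero_of_ord_ne_zero v hz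
  set m := v.ord z with hm
  set u := z * π ^ (-m) with hu
  have hu0 : u ≠ 0 := mul_ne_zero hz0 (zpow_ne_zero _ hπ0)
  have hordu : v.ord u = 0 := by
    rw [hu, v.ord_mul hz0 (zpow_ne_zero _ hπ0), v.ord_zpow, hπ]
    omega
  have hzu : z = u * π ^ m := by
    rw [hu, mul_assoc, ← zpow_add₀ hπ0]
    simp
  have hδu : δ u ∈ valSubalgebra v :=
    deriv_mem y hy v hπ δ hδ u ((mem_valSubalgebra v).2 hordu.ge)
  have hcm : c = π ^ (m - 1) * ((m : F) * u + π * δ u) := by
    rw [← hc, hzu, Derivation.leibniz, Derivation.leibniz_zpow, hδ]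
    simp only [smul_eq_mul, zsmul_eq_mul, mul_one]
    have : π ^ m = π ^ (m - 1) * π := by
      rw [← zpow_add_one₀ hπ0]; simp
    rw [this]
    ring
  have hmF : (m : F) ≠ 0 := by
    have h1 : (m : F) = algebraMap K F (m : K) := by simp
    rw [h1]
    exact (map_ne_zero (algebraMap K F)).2 (Int.cast_ne_zero.2 hz)
  have hordm : v.ord ((m : F) * u) = 0 := by
    rw [v.ord_mul hmF hu0, hordu]
    have : (m : F) = algebraMap K F (m : K) := by simp
    rw [this, ord_algebraMap]
    rfl
  have hsum : v.ord ((m : F) * u + π * δ u) = 0 := by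
    rcases eq_or_ne (δ u) 0 with h0 | h0
    · rw [h0, mul_zero, add_zero, hordm]
    · rw [ord_add_eq_of_lt v (mul_ne_zero hmF hu0) (mul_ne_zero hπ0 h0), hordm]
      rw [hordm, v.ord_mul hπ0 h0, hπ]
      have := (mem_valSubalgebra v).1 hδu
      omega
  have hne : (m : F) * u + π * δ u ≠ 0 := by
    intro h0
    rcases eq_or_ne (δ u) 0 with h1 | h1
    · rw [h1, mul_zero, add_zero] at h0
      exact mul_ne_zero hmF hu0 h0
    · have h2 : (m : F) * u = -(π * δ u) := by linear_combination h0
      have h3 : v.ord ((m : F) * u) = v.ord (π * δ u) := by rw [h2, ord_neg]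
      rw [hordm, v.ord_mul hπ0 h1, hπ] at h3
      have := (mem_valSubalgebra v).1 hδu
      omega
  rw [hcm, v.ord_mul (zpow_ne_zero _ hπ0) hne, v.ord_zpow, hπ, hsum]
  ring

namespace OrdDeriv

variable {K}

omit [IsAlgClosed K] [CharZero K] in
theorem exists_dCoord (v : Place K F) :
    ∃ π : F, v.ord π = 1 ∧ v.dCoord = KaehlerDifferential.D K F π :=
  ⟨((IsDiscreteValuationRing.exists_irreducible v.toValuationSubring).choose : F),
    v.ord_coe_irreducible (IsDiscreteValuationRing.exists_irreducible v.toValuationSubring).choose_spec,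
    rfl⟩

theorem dCoordGenerates (y : F) [FiniteDimensional K⟮y⟯ F] (v : Place K F) :
    v.DCoordGenerates := by
  obtain ⟨π, hπ, hd⟩ := exists_dCoord v
  have hπt : Transcendental K π := transcendental_of_ord_ne_zero K v (by omega)
  have : FiniteDimensional K⟮π⟯ F := finiteDimensional_of_transcendental K y hπt
  refine ⟨eq_top_iff.2 fun ω _ => ?_⟩
  obtain ⟨g, hg⟩ := exists_eq_smul_D K π hπt ω
  rw [hd, hg]
  exact Submodule.smul_mem _ _ (Submodule.mem_span_singleton_self _)

omit [IsAlgClosed K] in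
theorem nontrivial_kaehler (y : F) (hy : Transcendental K y) [FiniteDimensional K⟮y⟯ F] :
    Nontrivial (Ω[F⁄K]) :=
  ⟨⟨_, 0, D_ne_zero K y hy⟩⟩

end OrdDeriv

theorem ordDifferential_D (y : F) (hy : Transcendental K y) [FiniteDimensional K⟮y⟯ F]
    (v : Place K F) {z : F} (hz : v.ord z ≠ 0) :
    v.ordDifferential (KaehlerDifferential.D K F z) = v.ord z - 1 := by
  have := dCoordGenerates y v
  have := nontrivial_kaehler y hy
  obtain ⟨π, hπ, hd⟩ := exists_dCoord v
  have h := (v.differentialCoeff_smul_dCoord (KaehlerDifferential.D K F z)).symm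
  rw [hd] at h
  exact ord_of_D_eq_smul_D K y hy v hπ hz h

theorem ordDifferential_smul' (y : F) (hy : Transcendental K y) [FiniteDimensional K⟮y⟯ F]
    (v : Place K F) {g : F} (hg : g ≠ 0) {ω : Ω[F⁄K]} (hω : ω ≠ 0) :
    v.ordDifferential (g • ω) = v.ord g + v.ordDifferential ω := by
  have := dCoordGenerates y v
  have := nontrivial_kaehler y hy
  refine v.ordDifferential_smul hg fun h0 => hω ?_
  rw [← v.differentialCoeff_smul_dCoord ω, h0, zero_smul]

end Fermat.Agent.S24.FF
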