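import Fermat.Agent.S24.FF.SumFormula
import Fermat.Agent.S24.FF.DegOne
import Fermat.Agent.S24.FF.FiniteOver
import Fermat.Agent.S24.FF.Adjoin

set_option autoImplicit false

open AlgebraicCurve IntermediateField IsDedekindDomain
open scoped IntermediateField.algebraAdjoinAdjoin KaehlerDifferential

namespace Fermat.Agent.S24.FF

variable (K : Type*) {F : Type*} [Field K] [Field F] [Algebra K F]

variable [IsAlgClosed K] [CharZero K]

omit [CharZero K] in
/-- an element of `F` algebraic over the algebraically closed `K` is a constant -/
theorem mem_range_of_not_transcendental {f : F} (hf : ¬ Transcendental K f) :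
    ∃ c : K, algebraMap K F c = f := by
  have halg : IsAlgebraic K f := by
    simpa [Transcendental] using hf
  have hint : IsIntegral K f := halg.isIntegral
  exact minpoly.mem_range_of_degree_eq_one K f
    (IsAlgClosed.degree_eq_one_of_irreducible K (minpoly.irreducible hint))

omit [CharZero K] in
theorem ord_eq_zero_of_not_transcendental {f : F} (hf : ¬ Transcendental K f) (v : Place K F) :
    v.ord f = 0 := by
  obtain ⟨c, rfl⟩ := mem_range_of_not_transcendental K hf
  exact ord_algebraMap v c

theorem finite_ord_ne_zero (y : F) (hy : Transcendental K y) [FiniteDimensional K⟮y⟯ F]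
    {f : F} (hf : f ≠ 0) : {v : Place K F | v.ord f ≠ 0}.Finite := by
  by_cases hft : Transcendental K f
  · have : FiniteDimensional K⟮f⟯ F := finiteDimensional_of_transcendental K y hft
    have : FiniteDimensional K⟮f⁻¹⟯ F := finiteDimensional_congr K (adjoin_simple_inv K f).symm
    refine ((zeroPlaces_finite K f hft).union
      (zeroPlaces_finite K f⁻¹ (transcendental_inv K hft))).subset ?_
    intro v hv
    simp only [Set.mem_ofPred_eq] at hv
    simp only [Set.mem_union, mem_zeroPlaces, Place.ord_inv]
    rcases lt_or_gt_of_ne hv with h | h
    · right; omega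
    · left; exact h
  · convert Set.finite_empty
    ext v
    simp [ord_eq_zero_of_not_transcendental K hft v]

theorem degree_eq_zero_of_principal (y : F) (hy : Transcendental K y) [FiniteDimensional K⟮y⟯ F]
    {f : F} (hf : f ≠ 0) (D : Divisor K F)
    (hD : ∀ v, D v = v.ord f) : Divisor.degree D = 0 := by
  classical
  have hdeg : Divisor.degree D = ∑ v ∈ D.support, v.ord f := by
    have : Divisor.degree D = D.sum fun v n => n * (v.deg : ℤ) := by
      simp [Divisor.degree, Finsupp.liftAddHom_apply]
    rw [this, Finsupp.sum]
    refine Finset.sum_congr rfl fun v _ => ?_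
    rw [deg_eq_one K y hy v, hD v]; simp
  rw [hdeg]
  by_cases hft : Transcendental K f
  · have : FiniteDimensional K⟮f⟯ F := finiteDimensional_of_transcendental K y hft
    have : FiniteDimensional K⟮f⁻¹⟯ F := finiteDimensional_congr K (adjoin_simple_inv K f).symm
    have hfi := transcendental_inv K hft
    set Z := (zeroPlaces_finite K f hft).toFinset with hZ
    set P := (zeroPlaces_finite K f⁻¹ hfi).toFinset with hP
    have hdisj : Disjoint Z P := by
      rw [Finset.disjoint_left]
      intro v hv hv'
      simp only [hZ, hP, Set.Finite.mem_toFinset, mem_zeroPlaces, Place.ord_inv] at hv hv'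
      omega
    have hsupp : D.support = Z ∪ P := by
      ext v
      simp only [Finsupp.mem_support_iff, hD v, Finset.mem_union, hZ, hP,
        Set.Finite.mem_toFinset, mem_zeroPlaces, Place.ord_inv]
      constructor
      · intro h
        rcases lt_or_gt_of_ne h with h | h
        · right; omega
        · left; exact h
      · rintro (h | h) <;> omega
    rw [hsupp, Finset.sum_union hdisj]
    have h1 := sum_ord_zeroPlaces K f hft
    have h2 := sum_ord_zeroPlaces K f⁻¹ hfi
    rw [← hZ] at h1
    rw [← hP] at h2
    have h3 : ∑ v ∈ P, v.ord f = - ∑ v ∈ P, v.ord f⁻¹ := by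
      rw [← Finset.sum_neg_distrib]
      refine Finset.sum_congr rfl fun v _ => ?_
      rw [Place.ord_inv]; ring
    rw [h1, h3, h2, finrank_congr K (adjoin_simple_inv K f)]
    ring
  · refine Finset.sum_eq_zero fun v _ => ord_eq_zero_of_not_transcendental K hft v

end Fermat.Agent.S24.FF
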