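import Fermat.Agent.S24.FF.SumFormula
import Fermat.Agent.S24.FF.DegOne
import Fermat.Agent.S24.FF.Principal
import Fermat.Agent.S24.FF.Differential
import Fermat.Agent.S24.FF.OrdDeriv
import Fermat.Agent.S24.FF.Adjoin

set_option autoImplicit false

open AlgebraicCurve IntermediateField IsDedekindDomain
open scoped IntermediateField.algebraAdjoinAdjoin KaehlerDifferential

namespace Fermat.Agent.S24.FF

variable (K : Type*) {F : Type*} [Field K] [Field F] [Algebra K F]

variable [IsAlgClosed K] [CharZero K]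

namespace RH

theorem finite_sub (y : F) (hy : Transcendental K y) [FiniteDimensional K⟮y⟯ F] (c : K) :
    (zeroPlaces K (y - algebraMap K F c)).Finite := by
  have := finiteDimensional_congr K (adjoin_simple_sub_algebraMap K y c).symm
  exact zeroPlaces_finite K _ (transcendental_sub_algebraMap K hy c)

theorem sum_sub (y : F) (hy : Transcendental K y) [FiniteDimensional K⟮y⟯ F] (c : K) :
    ∑ v ∈ (finite_sub K y hy c).toFinset, v.ord (y - algebraMap K F c)
      = (Module.finrank K⟮y⟯ F : ℤ) := by
  have := finiteDimensional_congr K (adjoin_simple_sub_algebraMap K y c).symm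
  have := sum_ord_zeroPlaces K _ (transcendental_sub_algebraMap K hy c)
  rw [finrank_congr K (adjoin_simple_sub_algebraMap K y c)] at this
  exact this

theorem finite_inv (y : F) (hy : Transcendental K y) [FiniteDimensional K⟮y⟯ F] :
    (zeroPlaces K y⁻¹).Finite := by
  have := finiteDimensional_congr K (adjoin_simple_inv K y).symm
  exact zeroPlaces_finite K _ (transcendental_inv K hy)

theorem sum_inv (y : F) (hy : Transcendental K y) [FiniteDimensional K⟮y⟯ F] :
    ∑ v ∈ (finite_inv K y hy).toFinset, v.ord y⁻¹ = (Module.finrank K⟮y⟯ F : ℤ) := by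
  have := finiteDimensional_congr K (adjoin_simple_inv K y).symm
  have := sum_ord_zeroPlaces K _ (transcendental_inv K hy)
  rw [finrank_congr K (adjoin_simple_inv K y)] at this
  exact this

theorem ordDiff_of_neg (y : F) (hy : Transcendental K y) [FiniteDimensional K⟮y⟯ F]
    (v : Place K F) (h : v.ord y < 0) :
    v.ordDifferential (KaehlerDifferential.D K F y) = v.ord y - 1 :=
  ordDifferential_D K y hy v h.ne

theorem ordDiff_of_pos (y : F) (hy : Transcendental K y) [FiniteDimensional K⟮y⟯ F]
    (v : Place K F) (c : K) (h : 0 < v.ord (y - algebraMap K F c)) :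
    v.ordDifferential (KaehlerDifferential.D K F y) = v.ord (y - algebraMap K F c) - 1 := by
  have h1 : KaehlerDifferential.D K F y = KaehlerDifferential.D K F (y - algebraMap K F c) := by
    rw [map_sub, Derivation.map_algebraMap, sub_zero]
  rw [h1]
  exact ordDifferential_D K y hy v h.ne'

theorem ne_algebraMap {y : F} (hy : Transcendental K y) (c : K) : y ≠ algebraMap K F c := by
  rintro rfl
  exact hy (isAlgebraic_algebraMap c)

/-- poles of `y` are not zeros of `y - c` -/
theorem ord_sub_of_neg {y : F} (v : Place K F) (h : v.ord y < 0)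
    (c : K) : v.ord (y - algebraMap K F c) = v.ord y := by
  rcases eq_or_ne c 0 with rfl | hc
  · simp
  have hy0 : y ≠ 0 := ne_zero_of_ord_ne_zero v h.ne
  have hc0 : -algebraMap K F c ≠ 0 := by simpa using hc
  rw [sub_eq_add_neg]
  apply ord_add_eq_of_lt v hy0 hc0
  rw [ord_neg, ord_algebraMap]
  exact h

theorem eq_of_ord_sub_pos {y : F} (hy : Transcendental K y) (v : Place K F) {c c' : K}
    (h : 0 < v.ord (y - algebraMap K F c)) (h' : 0 < v.ord (y - algebraMap K F c')) : c = c' := by
  by_contra hne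
  have h1 : (y - algebraMap K F c') + -(y - algebraMap K F c) = algebraMap K F (c - c') := by
    rw [map_sub]; ring
  have h2 : algebraMap K F (c - c') ≠ 0 := by
    simpa [sub_eq_zero] using hne
  have h3 := ord_add v (sub_ne_zero.mpr (ne_algebraMap K hy c'))
    (neg_ne_zero.mpr (sub_ne_zero.mpr (ne_algebraMap K hy c))) (h1 ▸ h2)
  rw [h1, ord_algebraMap, ord_neg] at h3
  have := lt_min h' h
  omega

theorem card_eq (s : Set (Place K F)) (hs : s.Finite) : (Nat.card s : ℤ) = hs.toFinset.card := by
  rw [Nat.card_coe_set_eq, Set.ncard_eq_toFinset_card s hs]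

/-- if `y - c` has the maximal number of zeros, they are all simple -/
theorem ord_eq_one (y : F) (hy : Transcendental K y) [FiniteDimensional K⟮y⟯ F] (c : K)
    (hc : Nat.card (zeroPlaces K (y - algebraMap K F c)) = Module.finrank K⟮y⟯ F)
    (v : Place K F) (hv : 0 < v.ord (y - algebraMap K F c)) :
    v.ord (y - algebraMap K F c) = 1 := by
  have h1 := sum_sub K y hy c
  have h2 := card_eq K _ (finite_sub K y hy c)
  rw [hc] at h2
  have h3 : ∑ v ∈ (finite_sub K y hy c).toFinset, (1 : ℤ) =
      ∑ v ∈ (finite_sub K y hy c).toFinset, v.ord (y - algebraMap K F c) := by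
    rw [h1, h2]; simp
  have h4 := (Finset.sum_eq_sum_iff_of_le (fun w hw => by
    have hw' : w ∈ zeroPlaces K (y - algebraMap K F c) := (Set.Finite.mem_toFinset _).mp hw
    have : 0 < w.ord (y - algebraMap K F c) := hw'
    omega)).mp h3
  exact (h4 v ((Set.Finite.mem_toFinset _).mpr hv)).symm

/-- the divisor of `dy` -/
theorem degree_D (y : F) (hy : Transcendental K y) [FiniteDimensional K⟮y⟯ F]
    (B : Finset K)
    (hB : ∀ c ∉ B, Nat.card (zeroPlaces K (y - algebraMap K F c)) = Module.finrank K⟮y⟯ F)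
    (E : Divisor K F) (hE : ∀ v, E v = v.ordDifferential (KaehlerDifferential.D K F y)) :
    Divisor.degree E = -2 * (Module.finrank K⟮y⟯ F : ℤ)
      + ((Module.finrank K⟮y⟯ F : ℤ) - Nat.card (zeroPlaces K y⁻¹))
      + ∑ c ∈ B, ((Module.finrank K⟮y⟯ F : ℤ)
          - Nat.card (zeroPlaces K (y - algebraMap K F c))) := by
  classical
  set Sinf := (finite_inv K y hy).toFinset with hSinf
  set S : K → Finset (Place K F) := fun c => (finite_sub K y hy c).toFinset with hS
  have memSinf : ∀ v, v ∈ Sinf ↔ v.ord y < 0 := by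
    intro v
    rw [hSinf, Set.Finite.mem_toFinset, mem_zeroPlaces, v.ord_inv]
    omega
  have memS : ∀ c v, v ∈ S c ↔ 0 < v.ord (y - algebraMap K F c) := by
    intro c v
    rw [hS, Set.Finite.mem_toFinset, mem_zeroPlaces]
  set T := Sinf ∪ B.biUnion S with hT
  -- support
  have hsupp : E.support ⊆ T := by
    intro v hv
    rw [Finsupp.mem_support_iff, hE] at hv
    by_contra hvT
    rw [hT, Finset.mem_union, Finset.mem_biUnion, not_or] at hvT
    obtain ⟨h1, h2⟩ := hvT
    rw [memSinf, not_lt] at h1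
    obtain ⟨c, hc | hc⟩ := exists_sub_ord_pos K y hy v h1
    · exact ne_algebraMap K hy c hc
    · have hcB : c ∉ B := fun hcB => h2 ⟨c, hcB, (memS c v).mpr hc⟩
      apply hv
      rw [ordDiff_of_pos K y hy v c hc, ord_eq_one K y hy c (hB c hcB) v hc, sub_self]
  have hdeg : Divisor.degree E = ∑ v ∈ T, E v := by
    have h1 : Divisor.degree E = E.sum fun v n => n * (v.deg : ℤ) := by
      simp [Divisor.degree, Finsupp.liftAddHom_apply]
    rw [h1, Finsupp.sum_of_support_subset _ hsupp _ (by simp)]
    refine Finset.sum_congr rfl fun v _ => ?_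
    rw [deg_eq_one K y hy v]
    simp
  have hdisj1 : Disjoint Sinf (B.biUnion S) := by
    rw [Finset.disjoint_left]
    intro v hv hv'
    rw [Finset.mem_biUnion] at hv'
    obtain ⟨c, _, hc⟩ := hv'
    rw [memS, ord_sub_of_neg K v ((memSinf v).mp hv)] at hc
    have := (memSinf v).mp hv
    omega
  have hdisj2 : (B : Set K).PairwiseDisjoint S := by
    intro c _ c' _ hne
    rw [Function.onFun, Finset.disjoint_left]
    intro v hv hv'
    exact hne (eq_of_ord_sub_pos K hy v ((memS c v).mp hv) ((memS c' v).mp hv'))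
  rw [hdeg, hT, Finset.sum_union hdisj1, Finset.sum_biUnion hdisj2]
  have hA : ∑ v ∈ Sinf, E v = -(Module.finrank K⟮y⟯ F : ℤ) - Nat.card (zeroPlaces K y⁻¹) := by
    rw [card_eq K _ (finite_inv K y hy), ← sum_inv K y hy, ← hSinf, Finset.card_eq_sum_ones,
      Nat.cast_sum, ← Finset.sum_neg_distrib, ← Finset.sum_sub_distrib]
    refine Finset.sum_congr rfl fun v hv => ?_
    rw [hE, ordDiff_of_neg K y hy v ((memSinf v).mp hv), v.ord_inv]
    simp
  have hC : ∀ c ∈ B, ∑ v ∈ S c, E v = (Module.finrank K⟮y⟯ F : ℤ)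
          - Nat.card (zeroPlaces K (y - algebraMap K F c)) := by
    intro c _
    rw [card_eq K _ (finite_sub K y hy c), ← sum_sub K y hy c, Finset.card_eq_sum_ones,
      Nat.cast_sum, ← Finset.sum_sub_distrib]
    refine Finset.sum_congr rfl fun v hv => ?_
    rw [hE, ordDiff_of_pos K y hy v c ((memS c v).mp hv)]
    simp
  rw [hA, Finset.sum_congr rfl hC]
  ring

end RH

theorem riemann_hurwitz (y : F) (hy : Transcendental K y) [FiniteDimensional K⟮y⟯ F]
    (B : Finset K)
    (hB : ∀ c ∉ B, Nat.card (zeroPlaces K (y - algebraMap K F c)) = Module.finrank K⟮y⟯ F)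
    {ω : Ω[F⁄K]} (hω : ω ≠ 0) (D : Divisor K F) (hD : ∀ v, D v = v.ordDifferential ω) :
    Divisor.degree D = -2 * (Module.finrank K⟮y⟯ F : ℤ)
      + ((Module.finrank K⟮y⟯ F : ℤ) - Nat.card (zeroPlaces K y⁻¹))
      + ∑ c ∈ B, ((Module.finrank K⟮y⟯ F : ℤ)
          - Nat.card (zeroPlaces K (y - algebraMap K F c))) := by
  classical
  obtain ⟨g, rfl⟩ := exists_eq_smul_D K y hy ω
  have hg : g ≠ 0 := by
    rintro rfl
    simp at hω
  let Dg : Divisor K F := Finsupp.ofSupportFinite (fun v => v.ord g) (finite_ord_ne_zero K y hy hg)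
  have hDg : ∀ v, Dg v = v.ord g := fun v => rfl
  have h0 : Divisor.degree Dg = 0 := degree_eq_zero_of_principal K y hy hg Dg hDg
  have h1 := RH.degree_D K y hy B hB (D - Dg) (fun v => by
    rw [Finsupp.sub_apply, hD, hDg, ordDifferential_smul' K y hy v hg (D_ne_zero K y hy)]
    ring)
  rw [map_sub, h0, sub_zero] at h1
  exact h1

theorem exists_differential_ne_zero (y : F) (hy : Transcendental K y)
    [FiniteDimensional K⟮y⟯ F] : ∃ ω : Ω[F⁄K], ω ≠ 0 :=
  ⟨_, D_ne_zero K y hy⟩

end Fermat.Agent.S24.FF
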