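import Fermat.Agent.S24.FF.PlacePrime

set_option autoImplicit false
set_option linter.deprecated false
set_option linter.unusedSectionVars false

open AlgebraicCurve IntermediateField IsDedekindDomain
open scoped IntermediateField.algebraAdjoinAdjoin KaehlerDifferential

namespace Fermat.Agent.S24.FF

variable (K : Type*) {F : Type*} [Field K] [Field F] [Algebra K F]

section Base

variable (y : F)

/-- the ideal `(y)` of `K[y]` -/
def pY : Ideal (Ry K y) := Ideal.span {yR K y}

theorem sub_algebraMap_mem_pY (r : Ry K y) : ∃ c : K, r - algebraMap K (Ry K y) c ∈ pY K y := by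
  obtain ⟨q, rfl⟩ := polyToRy_surjective K y r
  refine ⟨q.coeff 0, ?_⟩
  have h : q = Polynomial.X * q.divX + Polynomial.C (q.coeff 0) := by
    rw [mul_comm]; exact (Polynomial.divX_mul_X_add q).symm
  have h3 : Polynomial.aeval y q
      = y * Polynomial.aeval y q.divX + algebraMap K F (q.coeff 0) := by
    conv_lhs => rw [h]
    rw [map_add, map_mul, Polynomial.aeval_X, Polynomial.aeval_C]
  have h2 : polyToRy K y q - algebraMap K (Ry K y) (q.coeff 0) = yR K y * polyToRy K y q.divX := by
    apply Subtype.ext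
    simp [h3]
  rw [h2]
  exact Ideal.mul_mem_right _ _ (Ideal.subset_span rfl)

theorem pY_ne_top (hy : Transcendental K y) : pY K y ≠ ⊤ := by
  intro h
  rw [Ideal.eq_top_iff_one, pY, Ideal.mem_span_singleton'] at h
  obtain ⟨a, ha⟩ := h
  obtain ⟨q, rfl⟩ := polyToRy_surjective K y a
  have h1 : Polynomial.aeval y (q * Polynomial.X - 1) = 0 := by
    have := congrArg (Subtype.val) ha
    simp at this
    simp [this]
  have h2 := (transcendental_iff.mp hy) _ h1
  have h3 := congrArg (fun p => Polynomial.coeff p 0) h2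
  simp at h3

theorem pY_isMaximal (hy : Transcendental K y) : (pY K y).IsMaximal := by
  rw [Ideal.isMaximal_iff]
  refine ⟨fun h => pY_ne_top K y hy ((Ideal.eq_top_iff_one _).mpr h), ?_⟩
  intro J x hJ hx hxJ
  obtain ⟨c, hc⟩ := sub_algebraMap_mem_pY K y x
  have hc0 : c ≠ 0 := by
    rintro rfl
    apply hx
    simpa using hc
  have h1 : algebraMap K (Ry K y) c ∈ J := by
    have := J.sub_mem hxJ (hJ hc)
    simpa using this
  have h2 := J.mul_mem_left (algebraMap K (Ry K y) c⁻¹) h1
  rwa [← map_mul, inv_mul_cancel₀ hc0, map_one] at h2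

theorem pY_ne_bot (hy : Transcendental K y) : pY K y ≠ ⊥ := by
  intro h
  rw [pY, Ideal.span_singleton_eq_bot] at h
  have : y = 0 := congrArg Subtype.val h
  exact hy (this ▸ isAlgebraic_zero)

end Base

/-- universe-polymorphic version of `IsAlgClosed.of_ringEquiv` -/
theorem isAlgClosed_of_ringEquiv' {k : Type*} {k' : Type*} [Field k] [Field k'] (e : k ≃+* k')
    [IsAlgClosed k] : IsAlgClosed k' := by
  apply IsAlgClosed.of_exists_root
  intro p hmp hp
  have hpe : Polynomial.degree (p.map e.symm.toRingHom) ≠ 0 := by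
    rw [Polynomial.degree_map]
    exact ne_of_gt (Polynomial.degree_pos_of_irreducible hp)
  rcases IsAlgClosed.exists_root (k := k) (p.map e.symm.toRingHom) hpe with ⟨x, hx⟩
  use e x
  rw [Polynomial.IsRoot] at hx
  apply e.symm.injective
  rw [map_zero, ← hx]
  clear hx hpe hp hmp
  induction p using Polynomial.induction_on <;> simp_all

theorem finrank_eq_one_of_bijective_algebraMap {k L : Type*} [CommRing k] [Nontrivial k]
    [CommRing L] [Algebra k L] (h : Function.Bijective (algebraMap k L)) :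
    Module.finrank k L = 1 := by
  rw [← (LinearEquiv.ofBijective (Algebra.linearMap k L) h).finrank_eq, Module.finrank_self]

theorem inertiaDeg_eq_one_aux {K R S : Type*} [Field K] [IsAlgClosed K] [CommRing R] [Algebra K R]
    [CommRing S] [Algebra R S] [Module.Finite R S] (p : Ideal R) [p.IsMaximal] (P : Ideal S)
    [P.IsPrime] [P.LiesOver p] (h : ∀ r : R, ∃ c : K, r - algebraMap K R c ∈ p) :
    p.inertiaDeg' P = 1 := by
  rw [Ideal.inertiaDeg'_algebraMap]
  let _ : Field (R ⧸ p) := Ideal.Quotient.field _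
  let φ : K →+* (R ⧸ p) := (Ideal.Quotient.mk p).comp (algebraMap K R)
  have hφ : Function.Bijective φ := by
    refine ⟨φ.injective, fun x => ?_⟩
    obtain ⟨r, rfl⟩ := Ideal.Quotient.mk_surjective x
    obtain ⟨c, hc⟩ := h r
    exact ⟨c, ((Ideal.Quotient.mk_eq_mk_iff_sub_mem _ _).mpr hc).symm⟩
  have : IsAlgClosed (R ⧸ p) := isAlgClosed_of_ringEquiv' (RingEquiv.ofBijective φ hφ)
  have hbij : Function.Bijective (algebraMap (R ⧸ p) (S ⧸ P)) :=
    IsAlgClosed.algebraMap_bijective_of_isIntegral
  exact finrank_eq_one_of_bijective_algebraMap hbij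

section Main

variable [CharZero K] (y : F) [FiniteDimensional K⟮y⟯ F]

/-- `(y)` as a height one prime of `K[y]` -/
noncomputable def vY (hy : Transcendental K y) : HeightOneSpectrum (Ry K y) :=
  ⟨pY K y, (pY_isMaximal K y hy).isPrime, pY_ne_bot K y hy⟩

omit [CharZero K] [FiniteDimensional K⟮y⟯ F] in
theorem yR_ne_zero (hy : Transcendental K y) : yR K y ≠ 0 := by
  intro h
  have : y = 0 := congrArg Subtype.val h
  exact hy (this ▸ isAlgebraic_zero)

omit [CharZero K] [FiniteDimensional K⟮y⟯ F] in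
theorem intValuation_vY (hy : Transcendental K y) :
    (vY K y hy).intValuation (yR K y) = WithZero.exp (-1 : ℤ) :=
  HeightOneSpectrum.intValuation_singleton _ (yR_ne_zero K y hy) rfl

theorem placeOf_ord_y (hy : Transcendental K y) (P : HeightOneSpectrum (Sy K y))
    [P.asIdeal.LiesOver (pY K y)] :
    (placeOf K y P).ord y = ((pY K y).ramificationIdx' P.asIdeal : ℤ) := by
  have : P.asIdeal.LiesOver (vY K y hy).asIdeal := ‹P.asIdeal.LiesOver (pY K y)›
  have h1 := HeightOneSpectrum.intValuation_liesOver (vY K y hy) P (yR K y)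
  rw [intValuation_vY] at h1
  have h2 : P.valuation F y = P.intValuation (algebraMap (Ry K y) (Sy K y) (yR K y)) := by
    rw [← HeightOneSpectrum.valuation_of_algebraMap (K := F)]
    rfl
  rw [placeOf_ord, h2, ← h1]
  show -WithZero.log (WithZero.exp (-1 : ℤ) ^ (pY K y).ramificationIdx' P.asIdeal) = _
  rw [← WithZero.exp_nsmul, WithZero.log_exp]
  simp

theorem inertiaDeg_eq_one [IsAlgClosed K] (hy : Transcendental K y) (P : Ideal (Sy K y))
    [P.IsPrime] [P.LiesOver (pY K y)] : (pY K y).inertiaDeg' P = 1 := by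
  have hmax := pY_isMaximal K y hy
  exact inertiaDeg_eq_one_aux (K := K) (pY K y) P (sub_algebraMap_mem_pY K y)

/-- `y` as an element of the integral closure -/
noncomputable def yS : Sy K y := algebraMap (Ry K y) (Sy K y) (yR K y)

omit [CharZero K] [FiniteDimensional K⟮y⟯ F] in
theorem coe_yS : ((yS K y : Sy K y) : F) = y := rfl

omit [CharZero K] [FiniteDimensional K⟮y⟯ F] in
theorem yS_ne_zero (hy : Transcendental K y) : yS K y ≠ 0 := by
  intro h
  have : y = 0 := congrArg Subtype.val h
  exact hy (this ▸ isAlgebraic_zero)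

omit [CharZero K] [FiniteDimensional K⟮y⟯ F] in
theorem liesOver_iff (hy : Transcendental K y) (P : Ideal (Sy K y)) [hP : P.IsPrime] :
    P.LiesOver (pY K y) ↔ yS K y ∈ P := by
  constructor
  · intro h
    have h1 : yR K y ∈ P.under (Ry K y) := by
      rw [← h.over]; exact Ideal.subset_span rfl
    exact h1
  · intro h
    refine ⟨(pY_isMaximal K y hy).eq_of_le ?_ ?_⟩
    · exact (Ideal.IsPrime.under (Ry K y) P).ne_top
    · rw [pY, Ideal.span_le, Set.singleton_subset_iff]
      exact h

theorem mem_primesOverFinset_iff' (hy : Transcendental K y) (P : HeightOneSpectrum (Sy K y)) :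
    P.asIdeal ∈ IsDedekindDomain.primesOverFinset (pY K y) (Sy K y) ↔ placeOf K y P ∈ zeroPlaces K y := by
  have hmax := pY_isMaximal K y hy
  have := P.isPrime
  have h1 : 0 < (placeOf K y P).ord y ↔ yS K y ∈ P.asIdeal :=
    placeOf_ord_pos_iff K y P (yS K y) (yS_ne_zero K y hy)
  rw [IsDedekindDomain.mem_primesOverFinset_iff (pY_ne_bot K y hy), mem_zeroPlaces, h1,
    ← liesOver_iff K y hy]
  exact ⟨fun h => h.2, fun h => ⟨P.isPrime, h⟩⟩

theorem zeroPlaces_eq_image (hy : Transcendental K y) :
    zeroPlaces K y = placeOf K y '' {P | P.asIdeal ∈ IsDedekindDomain.primesOverFinset (pY K y) (Sy K y)} := by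
  ext v
  constructor
  · intro hv
    obtain ⟨P, rfl⟩ := exists_placeOf_eq K y v (le_of_lt hv)
    exact ⟨P, (mem_primesOverFinset_iff' K y hy P).mpr hv, rfl⟩
  · rintro ⟨P, hP, rfl⟩
    exact (mem_primesOverFinset_iff' K y hy P).mp hP

end Main

variable [IsAlgClosed K] [CharZero K]

theorem zeroPlaces_finite (y : F) (hy : Transcendental K y) [FiniteDimensional K⟮y⟯ F] :
    (zeroPlaces K y).Finite := by
  rw [zeroPlaces_eq_image K y hy]
  apply Set.Finite.image
  apply Set.Finite.preimage (f := HeightOneSpectrum.asIdeal)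
    (s := (IsDedekindDomain.primesOverFinset (pY K y) (Sy K y) : Set (Ideal (Sy K y))))
  · intro a _ b _ hab
    exact HeightOneSpectrum.ext hab
  · exact Finset.finite_toSet _

theorem sum_ord_zeroPlaces (y : F) (hy : Transcendental K y) [FiniteDimensional K⟮y⟯ F] :
    ∑ v ∈ (zeroPlaces_finite K y hy).toFinset, v.ord y = (Module.finrank K⟮y⟯ F : ℤ) := by
  have hmax := pY_isMaximal K y hy
  have hbot := pY_ne_bot K y hy
  have key := Ideal.sum_ramification_inertia (R := Ry K y) (S := Sy K y) (K := K⟮y⟯) (L := F)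
    (p := pY K y) hbot
  rw [← key, Nat.cast_sum]
  symm
  have hpr : ∀ P ∈ IsDedekindDomain.primesOverFinset (pY K y) (Sy K y), P.IsPrime ∧ P ≠ ⊥ ∧ P.LiesOver (pY K y) := by
    intro P hP
    rw [IsDedekindDomain.mem_primesOverFinset_iff hbot] at hP
    refine ⟨hP.1, ?_, hP.2⟩
    rintro rfl
    have := hP.1
    exact yS_ne_zero K y hy ((liesOver_iff K y hy ⊥).mp hP.2)
  refine Finset.sum_bij
    (fun P hP => placeOf K y ⟨P, (hpr P hP).1, (hpr P hP).2.1⟩) ?_ ?_ ?_ ?_
  · intro P hP
    rw [Set.Finite.mem_toFinset]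
    exact (mem_primesOverFinset_iff' K y hy ⟨P, (hpr P hP).1, (hpr P hP).2.1⟩).mp hP
  · intro P hP Q hQ h
    exact congrArg HeightOneSpectrum.asIdeal (placeOf_injective K y h)
  · intro v hv
    rw [Set.Finite.mem_toFinset, zeroPlaces_eq_image K y hy] at hv
    obtain ⟨P, hP, rfl⟩ := hv
    exact ⟨P.asIdeal, hP, rfl⟩
  · intro P hP
    have h1 := (hpr P hP).1
    have h3 := (hpr P hP).2.2
    have : (⟨P, (hpr P hP).1, (hpr P hP).2.1⟩ : HeightOneSpectrum (Sy K y)).asIdeal.LiesOver
      (pY K y) := h3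
    rw [placeOf_ord_y K y hy, inertiaDeg_eq_one K y hy P, mul_one]

end Fermat.Agent.S24.FF
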