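import Fermat.Agent.S24.FF.PlaceBasic

set_option autoImplicit false

open AlgebraicCurve IntermediateField
open scoped IntermediateField.algebraAdjoinAdjoin

namespace Fermat.Agent.S24.FF

variable (K : Type*) {F : Type*} [Field K] [Field F] [Algebra K F] (y : F)

/-- The polynomial ring `K[y] ⊆ F`. -/
abbrev Ry : Subalgebra K F := Algebra.adjoin K {y}

/-- The integral closure of `K[y]` in `F`. -/
abbrev Sy : Subalgebra (Ry K y) F := integralClosure (Ry K y) F

/-- `y` as an element of `K[y]`. -/
def yR : Ry K y := ⟨y, Algebra.self_mem_adjoin_singleton K y⟩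

@[simp] theorem coe_yR : ((yR K y : Ry K y) : F) = y := rfl

theorem exists_aeval_eq (r : Ry K y) : ∃ p : Polynomial K, Polynomial.aeval y p = (r : F) := by
  have h : (r : F) ∈ Algebra.adjoin K {y} := r.2
  rw [Algebra.adjoin_singleton_eq_range_aeval] at h
  exact h

/-- `K[X] → K[y]`. -/
noncomputable def polyToRy : Polynomial K →ₐ[K] Ry K y :=
  (Polynomial.aeval (R := K) y).codRestrict (Ry K y) fun p => by
    show _ ∈ Algebra.adjoin K {y}
    rw [Algebra.adjoin_singleton_eq_range_aeval]; exact ⟨p, rfl⟩

@[simp] theorem coe_polyToRy (p : Polynomial K) :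
    ((polyToRy K y p : Ry K y) : F) = Polynomial.aeval y p := rfl

theorem polyToRy_surjective : Function.Surjective (polyToRy K y) := by
  intro r
  obtain ⟨p, hp⟩ := exists_aeval_eq K y r
  exact ⟨p, Subtype.ext hp⟩

instance instPIR : IsPrincipalIdealRing (Ry K y) :=
  IsPrincipalIdealRing.of_surjective (polyToRy K y).toRingHom (polyToRy_surjective K y)

variable [CharZero K] [FiniteDimensional K⟮y⟯ F]

instance instDedekindSy : IsDedekindDomain (Sy K y) :=
  integralClosure.isDedekindDomain (Ry K y) K⟮y⟯ F

instance instFiniteSy : Module.Finite (Ry K y) (Sy K y) :=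
  IsIntegralClosure.finite (Ry K y) K⟮y⟯ F (Sy K y)

instance instFractionSy : IsFractionRing (Sy K y) F :=
  IsIntegralClosure.isFractionRing_of_finite_extension (Ry K y) K⟮y⟯ F (Sy K y)

end Fermat.Agent.S24.FF
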